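import Fermat.Agent.H02J.Smo1

/-!
# The chart is formally smooth
-/

set_option autoImplicit false

noncomputable section

namespace Fermat.Agent.J25.I

attribute [-instance] HahnSeries.powerSeriesAlgebra

open HahnSeries Function Polynomial
open scoped TensorProduct

universe u

variable {k : Type u} [Field k] {A : Type u} [CommRing A] [Algebra k A]
  {e : A →ₐ[k] LaurentSeries k} {R : Type u} [CommRing R] [Algebra k R]

section Smo

variable {I : Ideal R} {Q : WPt e (R ⧸ I)} (D : LD I Q)

namespace LD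

variable {n : ℕ} (s : Q.Carrier →ₗ[(R ⧸ I) ⊗[k] A] (Fin n → (R ⧸ I) ⊗[k] A))
  (b : Fin n → LaurentSeries R)

/-- the lifted submodule, before normalisation -/
def MemM (x : LaurentSeries R) : Prop :=
  ∃ (m : Q.Carrier) (t : Fin n → R ⊗[k] A), (∀ l, bcRing (A := A) (qI k I) (t l) = s m l) ∧
    x - ∑ l, exR e R (t l) * b l ∈ D.U

variable {s b}

theorem MemM.add {x y : LaurentSeries R} (hx : D.MemM s b x) (hy : D.MemM s b y) :
    D.MemM s b (x + y) := by
  obtain ⟨m, t, ht, hx⟩ := hx
  obtain ⟨m', t', ht', hy⟩ := hy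
  refine ⟨m + m', t + t', fun l => ?_, ?_⟩
  · rw [Pi.add_apply, map_add, ht, ht', map_add]
    rfl
  · have h := add_mem hx hy
    convert h using 1
    simp only [Pi.add_apply, map_add, add_mul, Finset.sum_add_distrib]
    ring

theorem MemM.smul (hI : I ^ 2 = ⊥) {x : LaurentSeries R} (hx : D.MemM s b x) (c : R ⊗[k] A) :
    D.MemM s b (exR e R c * x) := by
  obtain ⟨m, t, ht, hx⟩ := hx
  refine ⟨bcRing (A := A) (qI k I) c • m, fun l => c * t l, fun l => ?_, ?_⟩
  · rw [map_mul, ht, map_smul]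
    rfl
  · have h := D.exR_mul_mem_U hI c hx
    convert h using 1
    rw [mul_sub, Finset.mul_sum]
    congr 1
    refine Finset.sum_congr rfl fun l _ => ?_
    rw [map_mul]
    ring

theorem MemM.of_mem_U {x : LaurentSeries R} (hx : x ∈ D.U) : D.MemM s b x := by
  refine ⟨0, 0, fun l => ?_, ?_⟩
  · rw [map_zero]
    simp
  · simpa using hx

end LD

theorem red_sum {n : ℕ} {g : (Fin n → (R ⧸ I) ⊗[k] A) →ₗ[(R ⧸ I) ⊗[k] A] Q.Carrier}
    {b : Fin n → LaurentSeries R} (hb : ∀ l, qL I (b l) = Q.incl (g (Pi.single l 1)))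
    (t : Fin n → R ⊗[k] A) :
    qL I (∑ l, exR e R (t l) * b l) = Q.incl (g fun l => bcRing (A := A) (qI k I) (t l)) := by
  have h1 : (fun l => bcRing (A := A) (qI k I) (t l)) =
      ∑ l, (bcRing (A := A) (qI k I) (t l)) • (Pi.single l 1 : Fin n → (R ⧸ I) ⊗[k] A) := by
    ext l
    rw [Finset.sum_apply]
    simp [Pi.single_apply]
  rw [h1, map_sum, map_sum, map_sum]
  refine Finset.sum_congr rfl fun l _ => ?_
  rw [map_mul, hb, LD.qL_exR, map_smul, WPt.incl_smul]

section Main

variable {n : ℕ} {g : (Fin n → (R ⧸ I) ⊗[k] A) →ₗ[(R ⧸ I) ⊗[k] A] Q.Carrier}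
  {s : Q.Carrier →ₗ[(R ⧸ I) ⊗[k] A] (Fin n → (R ⧸ I) ⊗[k] A)} {b : Fin n → LaurentSeries R}

theorem red_MemM (hs : ∀ m, g (s m) = m) (hb : ∀ l, qL I (b l) = Q.incl (g (Pi.single l 1)))
    {x : LaurentSeries R} {m : Q.Carrier} {t : Fin n → R ⊗[k] A}
    (ht : ∀ l, bcRing (A := A) (qI k I) (t l) = s m l)
    (hx : x - ∑ l, exR e R (t l) * b l ∈ D.U) : qL I x = Q.incl m := by
  have h1 := hx.2
  rw [map_sub, sub_eq_zero, red_sum hb] at h1
  rw [h1]
  congr 1
  have : (fun l => bcRing (A := A) (qI k I) (t l)) = s m := funext ht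
  rw [this, hs]

theorem mem_U_of_MemM (hI : I ^ 2 = ⊥) (hs : ∀ m, g (s m) = m)
    (hb : ∀ l, qL I (b l) = Q.incl (g (Pi.single l 1)))
    {x : LaurentSeries R} (hx : D.MemM s b x) (h0 : qL I x = 0) : x ∈ D.U := by
  obtain ⟨m, t, ht, hx⟩ := hx
  have h1 := red_MemM D hs hb ht hx
  rw [h0] at h1
  have h2 : m = 0 := Q.incl_injective (by rw [← h1, map_zero])
  have h3 : ∀ l, exR e R (t l) * b l ∈ D.U := fun l => by
    refine D.ker_mul_mem_U hI ?_ ?_
    · rw [ht, h2, map_zero]
      rfl
    · rw [hb]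
      exact Q.incl_mem _
  have h4 := add_mem hx (Submodule.sum_mem D.U fun l (_ : l ∈ Finset.univ) => h3 l)
  rwa [sub_add_cancel] at h4

theorem bcRing_surjective (I : Ideal R) :
    Surjective (bcRing (A := A) (qI k I)) :=
  TensorProduct.map_surjective (Ideal.Quotient.mkₐ_surjective k I) Function.surjective_id

theorem exists_MemM (m : Q.Carrier) (hs : ∀ m, g (s m) = m)
    (hb : ∀ l, qL I (b l) = Q.incl (g (Pi.single l 1))) :
    ∃ x, D.MemM s b x ∧ qL I x = Q.incl m := by
  choose t ht using fun l => bcRing_surjective (A := A) (k := k) I (s m l)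
  refine ⟨∑ l, exR e R (t l) * b l, ⟨m, t, ht, ?_⟩, ?_⟩
  · rw [sub_self]; exact zero_mem _
  · exact red_MemM D hs hb ht (by rw [sub_self]; exact zero_mem _)

/-- **lifting of the points of the chart** -/
theorem exists_lift_WPt (hI : I ^ 2 = ⊥) (Q : WPt e (R ⧸ I))
    [Module.Finite ((R ⧸ I) ⊗[k] A) Q.Carrier] [Module.Projective ((R ⧸ I) ⊗[k] A) Q.Carrier] :
    ∃ P : WPt e R, P.map (qI k I) = Q := by
  obtain ⟨D⟩ := exists_LD I Q
  obtain ⟨n, g, hg⟩ := Module.Finite.exists_fin' ((R ⧸ I) ⊗[k] A) Q.Carrier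
  obtain ⟨s, hs'⟩ := Module.projective_lifting_property g LinearMap.id hg
  have hs : ∀ m, g (s m) = m := fun m => LinearMap.congr_fun hs' m
  have hsurj : Surjective (qL I) := lmap_surjective Ideal.Quotient.mk_surjective
  choose b hb using fun l => hsurj (Q.incl (g (Pi.single l 1)))
  -- a lift of `1`
  obtain ⟨u, hu, hu1⟩ := exists_MemM D (one' Q) hs hb
  rw [incl_one'] at hu1
  have hv : qL I (u - 1) = 0 := by rw [map_sub, hu1, map_one, sub_self]
  have hvv : (u - 1) * (u - 1) = 0 := mul_of_qL hI hv hv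
  have hinv : u * (2 - u) = 1 := by linear_combination -hvv
  have hq2 : qL I (2 - u) = 1 := by
    rw [map_sub, hu1, map_ofNat]
    norm_num
  -- the submodule
  let M' : Submodule R (LaurentSeries R) :=
    { carrier := {x | D.MemM s b (u * x)}
      zero_mem' := by
        change D.MemM s b (u * 0)
        rw [mul_zero]
        exact LD.MemM.of_mem_U D (zero_mem _)
      add_mem' := fun {x y} hx hy => by
        change D.MemM s b (u * (x + y))
        rw [mul_add]
        exact LD.MemM.add D hx hy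
      smul_mem' := fun r x hx => by
        change D.MemM s b (u * (r • x))
        have h1 := LD.MemM.smul D hI hx (r ⊗ₜ[k] (1 : A))
        rwa [exR_tmul, map_one, smul_mul_assoc, one_mul, ← mul_smul_comm] at h1 }
  have hM' : ∀ x, x ∈ M' ↔ D.MemM s b (u * x) := fun _ => Iff.rfl
  have hred : ∀ x ∈ M', qL I x ∈ Q.M := by
    intro x hx
    obtain ⟨m, t, ht, hx⟩ := hx
    have h1 := red_MemM D hs hb ht hx
    rw [map_mul, hu1, one_mul] at h1
    rw [h1]
    exact Q.incl_mem m
  have hlift : ∀ y ∈ Q.M, ∃ x ∈ M', qL I x = y := by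
    intro y hy
    obtain ⟨x, hx, hxy⟩ := exists_MemM D (Q.elt y hy) hs hb
    refine ⟨(2 - u) * x, ?_, ?_⟩
    · rw [hM', ← mul_assoc, hinv, one_mul]
      exact hx
    · rw [map_mul, hq2, one_mul, hxy, WPt.incl_elt]
  have hU : ∀ x ∈ D.U, x ∈ M' := by
    intro x hx
    rw [hM']
    have h1 : u * x = x := by
      have := mul_of_qL hI hv hx.2
      linear_combination this
    rw [h1]
    exact LD.MemM.of_mem_U D hx
  have hU' : ∀ x ∈ M', qL I x = 0 → x ∈ D.U := by
    intro x hx h0
    have h1 : u * x = x := by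
      have := mul_of_qL hI hv h0
      linear_combination this
    rw [hM', h1] at hx
    exact mem_U_of_MemM D hI hs hb hx h0
  let P : WPt e R :=
    { M := M'
      stab := fun a m hm => by
        rw [hM']
        have h1 := LD.MemM.smul D hI hm ((1 : R) ⊗ₜ[k] a)
        rw [exR_tmul, one_smul] at h1
        have h2 : u * (ex e R a * m) = ex e R a * (u * m) := by ring
        rw [h2]
        exact h1
      one_mem := by
        rw [hM', mul_one]
        exact hu
      compl := by
        constructor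
        · rw [Submodule.disjoint_def]
          intro x hx hx1
          have h1 : qL I x = 0 := eq_zero_of_isCompl Q.compl _ (hred x hx) (lmap_mem_LV _ hx1)
          exact eq_zero_of_isCompl D.isCompl _ (hU' x hx h1).1 hx1
        · rw [codisjoint_iff, eq_top_iff]
          intro y _
          have h1 : qL I y ∈ Q.M ⊔ LV (R ⧸ I) 1 := by rw [Q.compl.sup_eq_top]; trivial
          obtain ⟨m, hm, v, hv, hmv⟩ := Submodule.mem_sup.1 h1
          obtain ⟨x, hx, hxm⟩ := hlift m hm
          obtain ⟨v', hv', hvv'⟩ := exists_lift_LV I hv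
          obtain ⟨z, hz, hz'⟩ := D.mem_U_add (y - x - v') (by
            rw [map_sub, map_sub, hxm, hvv', ← hmv]
            ring)
          have h2 : y = (x + z) + (v' + (y - x - v' - z)) := by ring
          rw [h2]
          exact Submodule.add_mem_sup (add_mem hx (hU z hz)) (add_mem hv' hz') }
  refine ⟨P, WPt.ext ?_⟩
  rw [P.map_M]
  apply le_antisymm
  · rw [Submodule.span_le]
    rintro _ ⟨x, hx, rfl⟩
    exact hred x hx
  · intro y hy
    obtain ⟨x, hx, rfl⟩ := hlift y hy
    exact Submodule.subset_span ⟨x, hx, rfl⟩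

end Main

end Smo

/-- **the chart is formally smooth** -/
theorem formallySmooth_Buniv {a : A} {d : ℕ} (H : Hyp e a d) :
    Algebra.FormallySmooth k (Buniv e) := by
  refine Algebra.FormallySmooth.of_comp_surjective fun B _ _ I hI f => ?_
  let Q : WPt e (B ⧸ I) := (uniW e).map f
  haveI := (module_props H Q).1
  haveI := (module_props H Q).2.1
  obtain ⟨P, hP⟩ := exists_lift_WPt hI Q
  refine ⟨P.cl, ?_⟩
  have h1 : (uniW e).map ((qI k I).comp P.cl) = (uniW e).map f := by
    rw [← WPt.map_map, P.map_cl, hP]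
  rw [← cl_map ((qI k I).comp P.cl), h1, cl_map]

/-- **the chart is smooth** -/
theorem smooth_Buniv {a : A} {d : ℕ} (H : Hyp e a d) : Algebra.Smooth k (Buniv e) := by
  haveI : Algebra.FiniteType k (Buniv e) :=
    Buniv_finiteType H.pos H.mem (by rw [H.coeff]; exact one_ne_zero) H.H1
  exact ⟨formallySmooth_Buniv H, (Algebra.FinitePresentation.of_finiteType).1 inferInstance⟩

end Fermat.Agent.J25.I
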