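import Mathlib
import Fermat.Agent.H02J.Smo2

/-!
# The hypotheses of WP4 hold for a `Geo`; the universal element of `G`
-/

set_option autoImplicit false

noncomputable section

universe u

open CategoryTheory CategoryTheory.Limits AlgebraicGeometry TensorProduct NeronModelInfra

namespace Fermat.Agent.J25.I

attribute [-instance] HahnSeries.powerSeriesAlgebra

variable {k : Type u} [Field k] {C : Scheme.{u}} {c : C ⟶ Spec (CommRingCat.of k)}
    {ε : SchemeHomOver (𝟙 (Spec (CommRingCat.of k))) c}

/-- a `Geo` satisfies the hypotheses of WP4 -/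
theorem hypGeo (g : Geo c ε) : Hyp g.e g.a g.d where
  inj := g.injA
  ded := fun κ _ _ _ => g.ded κ
  fin := g.finA
  pos := g.hd
  mem := g.ea_mem
  coeff := g.ea_coeff
  H1 := g.H1

/-- the universal element, over the chart -/
def univG (g : Geo c ε) : G g.e (R := Buniv g.e) g.a := toG (hypGeo g) (uniW g.e)

theorem sub_univG (g : Geo c ε) : G.sub (univG g) = (uniW g.e).M := rfl

theorem isCompl_univG (g : Geo c ε) : IsCompl (G.sub (univG g)) (LV (Buniv g.e) 1) :=
  (uniW g.e).compl

theorem one_mem_univG (g : Geo c ε) : (1 : LaurentSeries (Buniv g.e)) ∈ G.sub (univG g) :=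
  (uniW g.e).one_mem

/-- the chart is formally smooth -/
theorem formallySmooth_geo (g : Geo c ε) : Algebra.FormallySmooth k (Buniv g.e) :=
  formallySmooth_Buniv (hypGeo g)

/-- the chart is smooth -/
theorem smooth_geo (g : Geo c ε) : Algebra.Smooth k (Buniv g.e) :=
  smooth_Buniv (hypGeo g)

/-- base change of the universal element -/
theorem bc_univG (g : Geo c ε) {R : Type u} [CommRing R] [Algebra k R] (f : Buniv g.e →ₐ[k] R) :
    bc f (univG g) = toG (hypGeo g) ((uniW g.e).map f) :=
  toG_bc (hypGeo g) (uniW g.e) f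

end Fermat.Agent.J25.I
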