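import Mathlib

/-!
# Fibrewise flatness for finitely presented modules
-/

set_option autoImplicit false

open TensorProduct Module Function

universe u

namespace Fermat.Agent.J25.I

section Tor

variable {R : Type*} [CommRing R] {N P M : Type*} [AddCommGroup N] [AddCommGroup P]
  [AddCommGroup M] [Module R N] [Module R P] [Module R M]

/-- an exact sequence with flat cokernel stays exact after tensoring. -/
theorem lTensor_injective_of_flat (f : N →ₗ[R] P) (g : P →ₗ[R] M) (hf : Injective f)
    (hg : Surjective g) (h : Exact f g) [Module.Flat R M] (Q : Type*) [AddCommGroup Q]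
    [Module R Q] : Injective (f.lTensor Q) := by
  let π : (Q →₀ R) →ₗ[R] Q := Finsupp.linearCombination R (id : Q → Q)
  have hπ : Surjective π := fun q => ⟨Finsupp.single q 1, by simp [π]⟩
  refine lTensor_injective_of_exact_of_exact_of_rTensor_injective (M₁ := ↥(LinearMap.ker π))
    (f₁ := (LinearMap.ker π).subtype) (f₂ := π) (g₁ := f) (g₂ := g) ?_ hπ h hg ?_ ?_
  · exact LinearMap.exact_subtype_ker_map π
  · exact Module.Flat.rTensor_preserves_injective_linearMap _ (Submodule.subtype_injective _)
  · exact Module.Flat.lTensor_preserves_injective_linearMap _ hf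

end Tor

section Cancel

variable {S T : Type*} [CommRing S] [CommRing T] [Algebra S T] {N P : Type*} [AddCommGroup N]
  [AddCommGroup P] [Module S N] [Module S P] (K : Type*) [AddCommGroup K] [Module S K]
  [Module T K] [IsScalarTower S T K]

theorem cancel_natural (f : N →ₗ[S] P) (x : K ⊗[T] (T ⊗[S] N)) :
    AlgebraTensorModule.cancelBaseChange S T T K P ((f.baseChange T).lTensor K x) =
      f.lTensor K (AlgebraTensorModule.cancelBaseChange S T T K N x) := by
  induction x with
  | zero => simp
  | add x y hx hy => rw [map_add, map_add, hx, hy, map_add, map_add]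
  | tmul a y =>
    induction y with
    | zero => simp
    | add x y hx hy => rw [tmul_add, map_add, map_add, hx, hy, map_add, map_add]
    | tmul t n => simp

theorem cancel_inj (f : N →ₗ[S] P) :
    Injective ((f.baseChange T).lTensor K) ↔ Injective (f.lTensor K) := by
  have h : (AlgebraTensorModule.cancelBaseChange S T T K P) ∘ ((f.baseChange T).lTensor K) =
      (f.lTensor K) ∘ (AlgebraTensorModule.cancelBaseChange S T T K N) :=
    funext fun x => cancel_natural K f x
  constructor
  · intro h1
    have h2 : Injective ((f.lTensor K) ∘ (AlgebraTensorModule.cancelBaseChange S T T K N)) := by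
      rw [← h]
      exact (AlgebraTensorModule.cancelBaseChange S T T K P).injective.comp h1
    exact (Injective.of_comp_iff' _
      (AlgebraTensorModule.cancelBaseChange S T T K N).bijective).1 h2
  · intro h1
    have h2 : Injective ((AlgebraTensorModule.cancelBaseChange S T T K P) ∘
        ((f.baseChange T).lTensor K)) := by
      rw [h]
      exact h1.comp (AlgebraTensorModule.cancelBaseChange S T T K N).injective
    exact h2.of_comp

end Cancel

end Fermat.Agent.J25.I
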