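import Fermat.Agent.H02J.Inv1

/-!
# Fibrewise flat, finitely presented, flat over the base implies projective
-/

set_option autoImplicit false

open TensorProduct Module Function

universe u

namespace Fermat.Agent.J25.I

variable {R S M : Type u} [CommRing R] [CommRing S] [Algebra R S] [AddCommGroup M] [Module R M]
  [Module S M] [IsScalarTower R S M]

section

variable {N P : Type u} [AddCommGroup N] [AddCommGroup P] [Module S N] [Module S P]
  [Module R N] [Module R P] [IsScalarTower R S N] [IsScalarTower R S P]

/-- tensoring over `S` with `S ⊗ κ` is tensoring over `R` with `κ` -/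
theorem rTensor_natural (κ : Type u) [CommRing κ] [Algebra R κ] (f : N →ₗ[S] P)
    (x : N ⊗[S] (S ⊗[R] κ)) :
    AlgebraTensorModule.cancelBaseChange R S S P κ (f.rTensor (S ⊗[R] κ) x) =
      (f.restrictScalars R).rTensor κ (AlgebraTensorModule.cancelBaseChange R S S N κ x) := by
  induction x with
  | zero => simp
  | add x y hx hy => rw [map_add, map_add, hx, hy, map_add, map_add]
  | tmul a y =>
    induction y with
    | zero => simp
    | add x y hx hy => rw [tmul_add, map_add, map_add, hx, hy, map_add, map_add]
    | tmul t n => simp

theorem rTensor_inj_of (κ : Type u) [CommRing κ] [Algebra R κ] (f : N →ₗ[S] P)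
    (h : Injective ((f.restrictScalars R).rTensor κ)) : Injective (f.rTensor (S ⊗[R] κ)) := by
  have h2 : Injective ((AlgebraTensorModule.cancelBaseChange R S S P κ) ∘
      (f.rTensor (S ⊗[R] κ))) := by
    have h3 : (AlgebraTensorModule.cancelBaseChange R S S P κ) ∘ (f.rTensor (S ⊗[R] κ)) =
        ((f.restrictScalars R).rTensor κ) ∘ (AlgebraTensorModule.cancelBaseChange R S S N κ) :=
      funext fun x => rTensor_natural κ f x
    rw [h3]
    exact h.comp (AlgebraTensorModule.cancelBaseChange R S S N κ).injective
  exact h2.of_comp

end

theorem lTensor_inj_of_field {K K' : Type u} [Field K] [Field K'] [Algebra K K'] [Algebra S K]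
    [Algebra S K'] [IsScalarTower S K K'] {N P : Type u} [AddCommGroup N] [AddCommGroup P]
    [Module S N] [Module S P] (f : N →ₗ[S] P) (h : Injective (f.lTensor K')) :
    Injective (f.lTensor K) := by
  obtain ⟨r, hr⟩ := (Algebra.linearMap K K').exists_leftInverse_of_injective
    (LinearMap.ker_eq_bot.2 (algebraMap K K').injective)
  let i : K →ₗ[S] K' := (Algebra.linearMap K K').restrictScalars S
  have hi : Injective (i.rTensor N) := by
    have h1 : (r.restrictScalars S).comp i = LinearMap.id := by
      ext x
      exact LinearMap.congr_fun hr x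
    have h2 : ((r.restrictScalars S).rTensor N).comp (i.rTensor N) = LinearMap.id := by
      rw [← LinearMap.rTensor_comp, h1, LinearMap.rTensor_id]
    exact HasLeftInverse.injective ⟨_, LinearMap.congr_fun h2⟩
  have h3 : (f.lTensor K') ∘ₗ (i.rTensor N) = (i.rTensor P) ∘ₗ (f.lTensor K) := by
    rw [LinearMap.lTensor_comp_rTensor, LinearMap.rTensor_comp_lTensor]
  have h4 : Injective ((i.rTensor P) ∘ₗ (f.lTensor K)) := by
    rw [← h3]
    exact h.comp hi
  exact Injective.of_comp (f := i.rTensor P) h4

/-- the fibre criterion at one prime -/
theorem free_localization [Module.FinitePresentation S M] [Module.Flat R M] (x : Ideal S)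
    [x.IsPrime]
    (h : Module.Flat (S ⊗[R] AlgebraicClosure x.ResidueField)
      ((S ⊗[R] AlgebraicClosure x.ResidueField) ⊗[S] M)) :
    Module.Free (Localization.AtPrime x) (Localization.AtPrime x ⊗[S] M) := by
  obtain ⟨m, g, hg⟩ := Module.Finite.exists_fin' S M
  let N := LinearMap.ker g
  let f : N →ₗ[S] (Fin m → S) := N.subtype
  have hf : Injective f := Submodule.subtype_injective _
  have hfg : Exact f g := LinearMap.exact_subtype_ker_map g
  haveI : Module.Finite S N := Module.Finite.of_fg (Module.FinitePresentation.fg_ker g hg)
  let K := AlgebraicClosure x.ResidueField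
  let T := S ⊗[R] K
  letI : Algebra T K := (Algebra.TensorProduct.lift (Algebra.ofId S K) (AlgHom.id R K)
    fun _ _ => Commute.all _ _).toRingHom.toAlgebra
  haveI : IsScalarTower S T K := IsScalarTower.of_algebraMap_eq fun s => by
    change _ = (Algebra.TensorProduct.lift (Algebra.ofId S K) (AlgHom.id R K)
      fun _ _ => Commute.all _ _) (s ⊗ₜ 1)
    simp [Algebra.ofId_apply]
  -- injectivity over `T`
  have h1 : Injective ((f.restrictScalars R).rTensor K) := by
    rw [← LinearMap.lTensor_inj_iff_rTensor_inj]
    exact lTensor_injective_of_flat (f.restrictScalars R) (g.restrictScalars R) hf hg hfg K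
  have h2 : Injective (f.baseChange T) := by
    have h3 : Injective (f.rTensor T) := rTensor_inj_of K f h1
    rw [← LinearMap.lTensor_inj_iff_rTensor_inj] at h3
    exact h3
  have h3 : Surjective (g.baseChange T) := LinearMap.lTensor_surjective T hg
  have h4 : Exact (f.baseChange T) (g.baseChange T) := lTensor_exact T hfg hg
  haveI : Module.Flat T (T ⊗[S] M) := h
  have h5 : Injective ((f.baseChange T).lTensor K) :=
    lTensor_injective_of_flat _ _ h2 h3 h4 K
  have h6 : Injective (f.lTensor K) := (cancel_inj K f).1 h5
  have h6' : Injective (f.lTensor x.ResidueField) := lTensor_inj_of_field f h6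
  -- over the local ring
  let L := Localization.AtPrime x
  have h7 : Injective ((f.baseChange L).lTensor (IsLocalRing.ResidueField L)) :=
    (cancel_inj (T := L) (IsLocalRing.ResidueField L) f).2 h6'
  have h8 : Surjective (g.baseChange L) := LinearMap.lTensor_surjective L hg
  have h9 : Exact (f.baseChange L) (g.baseChange L) := lTensor_exact L hfg hg
  exact Module.free_of_lTensor_residueField_injective _ _ h8 h9 h7

/-- **fibre criterion** -/
theorem projective_of_fibre [Module.FinitePresentation S M] [Module.Flat R M]
    (h : ∀ (κ : Type u) [Field κ] [IsAlgClosed κ] [Algebra R κ],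
      Module.Flat (S ⊗[R] κ) ((S ⊗[R] κ) ⊗[S] M)) : Module.Projective S M := by
  refine Module.projective_of_localization_maximal fun x hx => ?_
  haveI := free_localization (R := R) (M := M) x (h _)
  exact Module.Projective.of_equiv (LocalizedModule.equivTensorProduct x.primeCompl M).symm

end Fermat.Agent.J25.I
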