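import Fermat.Agent.H02J.Inv2

/-!
# Invertible submodules of an algebra
-/

set_option autoImplicit false

open TensorProduct Module Function

universe u

namespace Fermat.Agent.J25.I

section Gen

variable {S M : Type*} [CommRing S] [AddCommGroup M] [Module S M]

/-- a criterion for invertibility: the trace ideal is the unit ideal and the rank is one -/
theorem invertible_of {ι : Type*} [Fintype ι] (f : ι → Dual S M) (e : ι → M)
    (h1 : ∑ i, f i (e i) = 1) (h2 : ∀ (g : Dual S M) (m m' : M), g m • m' = g m' • m) :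
    Module.Invertible S M := by
  let t : Dual S M ⊗[S] M := ∑ i, f i ⊗ₜ e i
  have ht : contractLeft S M t = 1 := by
    simp only [t, map_sum, contractLeft_apply]
    exact h1
  have hg : ∀ (g g' : Dual S M) (n : M), g' n • g = g n • g' := by
    intro g g' n
    ext m
    have h3 := congrArg g (h2 g' n m)
    rw [map_smul, map_smul] at h3
    simp only [LinearMap.smul_apply]
    rw [h3, smul_eq_mul, smul_eq_mul, mul_comm]
  have key : ∀ y : Dual S M ⊗[S] M, contractLeft S M y • t = y := by
    intro y
    induction y with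
    | zero => simp
    | add y z hy hz => rw [map_add, add_smul, hy, hz]
    | tmul g n =>
      rw [contractLeft_apply]
      simp only [t, Finset.smul_sum]
      calc ∑ i, g n • (f i ⊗ₜ[S] e i) = ∑ i, (f i n • g) ⊗ₜ[S] e i := by
            refine Finset.sum_congr rfl fun i _ => ?_
            rw [smul_tmul', hg g (f i) n]
        _ = ∑ i, g ⊗ₜ[S] (f i (e i) • n) := by
            refine Finset.sum_congr rfl fun i _ => ?_
            rw [← smul_tmul', ← tmul_smul, h2 (f i) (e i) n]
        _ = g ⊗ₜ[S] n := by rw [← tmul_sum, ← Finset.sum_smul, h1, one_smul]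
  refine ⟨⟨fun y z hyz => ?_, fun s => ⟨s • t, ?_⟩⟩⟩
  · rw [← key y, ← key z, hyz]
  · rw [map_smul, ht, smul_eq_mul, mul_one]

end Gen

section Trace

variable {S M : Type*} [CommRing S] [AddCommGroup M] [Module S M]

/-- the trace ideal of a finite projective module with no `x M = M` is everything. -/
theorem exists_trace_one [Module.Finite S M] [Module.Projective S M]
    (h : ∀ x : Ideal S, x.IsMaximal → x • (⊤ : Submodule S M) ≠ ⊤) :
    ∃ (n : ℕ) (f : Fin n → Dual S M) (e : Fin n → M), ∑ i, f i (e i) = 1 := by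
  obtain ⟨n, g, hg⟩ := Module.Finite.exists_fin' S M
  obtain ⟨s, hs⟩ := Module.projective_lifting_property g LinearMap.id hg
  let f : Fin n → Dual S M := fun i => (LinearMap.proj i).comp s
  let b : Fin n → M := fun i => g (Pi.single i 1)
  have hb : ∀ m : M, m = ∑ i, f i m • b i := by
    intro m
    have h1 : g (s m) = m := LinearMap.congr_fun hs m
    conv_lhs => rw [← h1, ← Finset.univ_sum_single (s m), map_sum]
    refine Finset.sum_congr rfl fun i _ => ?_
    change g (Pi.single i (s m i)) = s m i • g (Pi.single i 1)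
    rw [← map_smul, ← Pi.single_smul, smul_eq_mul, mul_one]
  let I : Ideal S := Ideal.span (Set.range fun p : Fin n × Fin n => f p.1 (b p.2))
  have hI : I = ⊤ := by
    by_contra hI
    obtain ⟨x, hx, hIx⟩ := Ideal.exists_le_maximal I hI
    apply h x hx
    rw [eq_top_iff]
    have h2 : ∀ j, b j ∈ x • (⊤ : Submodule S M) := by
      intro j
      rw [hb (b j)]
      refine Submodule.sum_mem _ fun i _ => Submodule.smul_mem_smul ?_ trivial
      exact hIx (Ideal.subset_span ⟨(i, j), rfl⟩)
    intro m _
    rw [hb m]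
    exact Submodule.sum_mem _ fun i _ => Submodule.smul_mem _ _ (h2 i)
  have h1 : (1 : S) ∈ I := by rw [hI]; trivial
  obtain ⟨c, hc⟩ := (Ideal.mem_span_range_iff_exists_fun).1 h1
  let e' := Fintype.equivFin (Fin n × Fin n)
  refine ⟨Fintype.card (Fin n × Fin n), fun i => c (e'.symm i) • f (e'.symm i).1,
    fun i => b (e'.symm i).2, ?_⟩
  rw [← hc, ← e'.symm.sum_comp]
  rfl

end Trace

section Sub

variable {S V : Type*} [CommRing S] [CommRing V] [Algebra S V]

/-- rank one, for submodules of an algebra -/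
theorem smul_swap (M : Submodule S V) (d : S) (hd : algebraMap S V d ∈ nonZeroDivisors V)
    (hdM : ∀ m ∈ M, ∃ s : S, algebraMap S V s = d • m) (g : Dual S M) (m m' : M) :
    g m • m' = g m' • m := by
  obtain ⟨s, hs⟩ := hdM m m.2
  obtain ⟨s', hs'⟩ := hdM m' m'.2
  -- `s' • m = s • m'` in `M`
  have h3 : s' • m = s • m' := by
    apply Subtype.ext
    rw [Submodule.coe_smul, Submodule.coe_smul, Algebra.smul_def, Algebra.smul_def, hs, hs',
      smul_mul_assoc, smul_mul_assoc, mul_comm]
  have h4 : s' * g m = s * g m' := by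
    have := congrArg g h3
    rwa [map_smul, map_smul, smul_eq_mul, smul_eq_mul] at this
  apply Subtype.ext
  rw [Submodule.coe_smul, Submodule.coe_smul]
  refine sub_eq_zero.1 ((mem_nonZeroDivisors_iff.1 hd).1 _ ?_)
  rw [mul_sub, sub_eq_zero, ← Algebra.smul_def, ← Algebra.smul_def, smul_comm d, ← hs',
    smul_comm d, ← hs, Algebra.smul_def, Algebra.smul_def, ← map_mul, ← map_mul, mul_comm (g m),
    h4, mul_comm]

/-- **invertible submodules of an algebra** -/
theorem exists_inv_of_submodule (hinj : Injective (algebraMap S V)) (M : Submodule S V)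
    [Module.Finite S M] [Module.Projective S M] (h1 : (1 : V) ∈ M) (d : S)
    (hd : algebraMap S V d ∈ nonZeroDivisors V)
    (hdM : ∀ m ∈ M, ∃ s : S, algebraMap S V s = d • m) :
    ∃ (n : ℕ) (y : Fin n → S) (e : Fin n → V), (∀ i, e i ∈ M) ∧
      (∀ i, ∀ m ∈ M, ∃ s : S, algebraMap S V s = y i • m) ∧ ∑ i, y i • e i = 1 := by
  have h2 := smul_swap M d hd hdM
  obtain ⟨n, f, e, hfe⟩ := exists_trace_one (S := S) (M := M) (fun x hx hxM => by
    obtain ⟨r, hr1, hr2⟩ := Submodule.exists_sub_one_mem_and_smul_eq_zero_of_fg_of_le_smul x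
      (⊤ : Submodule S M) Module.Finite.fg_top (le_of_eq hxM.symm)
    have h3 := congrArg Subtype.val (hr2 ⟨1, h1⟩ trivial)
    rw [Submodule.coe_smul, Submodule.coe_zero, ← Algebra.algebraMap_eq_smul_one] at h3
    have h4 : r = 0 := hinj (by rw [h3, map_zero])
    rw [h4, zero_sub, neg_mem_iff] at hr1
    exact hx.ne_top ((Ideal.eq_top_iff_one x).2 hr1))
  have h5 : ∀ (g : Dual S M) (m : M), algebraMap S V (g m) = g ⟨1, h1⟩ • (m : V) := by
    intro g m
    have := congrArg Subtype.val (h2 g m ⟨1, h1⟩)
    rw [Submodule.coe_smul, Submodule.coe_smul] at this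
    rw [← this, Algebra.algebraMap_eq_smul_one]
  refine ⟨n, fun i => f i ⟨1, h1⟩, fun i => e i, fun i => (e i).2,
    fun i m hm => ⟨f i ⟨m, hm⟩, h5 (f i) ⟨m, hm⟩⟩, ?_⟩
  have h6 : ∑ i, algebraMap S V (f i (e i)) = 1 := by
    rw [← map_sum, hfe, map_one]
  calc ∑ i, f i ⟨1, h1⟩ • ((e i : M) : V) = ∑ i, algebraMap S V (f i (e i)) :=
        Finset.sum_congr rfl fun i _ => (h5 (f i) (e i)).symm
    _ = 1 := h6

theorem invertible_of_submodule (hinj : Injective (algebraMap S V)) (M : Submodule S V)
    [Module.Finite S M] [Module.Projective S M] (h1 : (1 : V) ∈ M) (d : S)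
    (hd : algebraMap S V d ∈ nonZeroDivisors V)
    (hdM : ∀ m ∈ M, ∃ s : S, algebraMap S V s = d • m) : Module.Invertible S M := by
  obtain ⟨n, f, e, hfe⟩ := exists_trace_one (S := S) (M := M) (fun x hx hxM => by
    obtain ⟨r, hr1, hr2⟩ := Submodule.exists_sub_one_mem_and_smul_eq_zero_of_fg_of_le_smul x
      (⊤ : Submodule S M) Module.Finite.fg_top (le_of_eq hxM.symm)
    have h3 := congrArg Subtype.val (hr2 ⟨1, h1⟩ trivial)
    rw [Submodule.coe_smul, Submodule.coe_zero, ← Algebra.algebraMap_eq_smul_one] at h3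
    have h4 : r = 0 := hinj (by rw [h3, map_zero])
    rw [h4, zero_sub, neg_mem_iff] at hr1
    exact hx.ne_top ((Ideal.eq_top_iff_one x).2 hr1))
  exact invertible_of f e hfe (smul_swap M d hd hdM)

end Sub

section FP

variable {P S M : Type*} [CommRing P] [CommRing S] [Algebra P S] [AddCommGroup M] [Module P M]
  [Module S M] [IsScalarTower P S M]

theorem fp_of_fp [Module.Finite P S] [Module.FinitePresentation P M] :
    Module.FinitePresentation S M := by
  haveI : Module.Finite S M := Module.Finite.of_restrictScalars_finite P S M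
  obtain ⟨m, g, hg⟩ := Module.Finite.exists_fin' S M
  refine Module.finitePresentation_of_free_of_surjective g hg ?_
  have h1 : (LinearMap.ker (g.restrictScalars P)).FG :=
    Module.FinitePresentation.fg_ker (g.restrictScalars P) hg
  obtain ⟨t, ht⟩ := h1
  refine ⟨t, le_antisymm (Submodule.span_le.2 fun y hy => ?_) fun y hy => ?_⟩
  · have h2 : y ∈ LinearMap.ker (g.restrictScalars P) := by
      rw [← ht]; exact Submodule.subset_span hy
    exact h2
  · have h2 : y ∈ Submodule.span P (t : Set (Fin m → S)) := by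
      rw [ht]; exact hy
    exact Submodule.span_le_restrictScalars P S _ h2

end FP

end Fermat.Agent.J25.I
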