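import Fermat.Agent.J25.Laur

/-!
# Triangular bases of big cell subspaces of Laurent series
-/

set_option autoImplicit false

noncomputable section

namespace Fermat.Agent.J25.I

attribute [-instance] HahnSeries.powerSeriesAlgebra

open HahnSeries Function Polynomial

universe u

variable {R : Type u} [CommRing R]

section TB

variable {M : Submodule R (LaurentSeries R)} {v : ℕ → LaurentSeries R}

theorem tri_linearIndependent (h1 : ∀ j : ℕ, v j ∈ LV R (-(j : ℤ)))
    (h2 : ∀ j : ℕ, (v j).coeff (-(j : ℤ)) = 1) : LinearIndependent R v := by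
  rw [linearIndependent_iff]
  intro c hc
  by_contra h0
  have hne : c.support.Nonempty := Finsupp.support_nonempty_iff.2 h0
  let n := c.support.max' hne
  have hn : n ∈ c.support := Finset.max'_mem _ _
  have h3 : (Finsupp.linearCombination R v c).coeff (-(n : ℤ)) = c n := by
    rw [Finsupp.linearCombination_apply, Finsupp.sum, HahnSeries.coeff_sum,
      Finset.sum_eq_single_of_mem n hn]
    · rw [HahnSeries.coeff_smul, h2, smul_eq_mul, mul_one]
    · intro j hj hjn
      have h4 : j ≤ n := Finset.le_max' _ _ hj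
      have h5 : j < n := lt_of_le_of_ne h4 hjn
      rw [HahnSeries.coeff_smul, h1 j _ (by omega), smul_zero]
  rw [hc, HahnSeries.coeff_zero] at h3
  exact (Finsupp.mem_support_iff.1 hn) h3.symm

theorem tri_span (hM : ∀ m ∈ M, m ∈ LV R 1 → m = 0) (h0 : ∀ j, v j ∈ M)
    (h1 : ∀ j : ℕ, v j ∈ LV R (-(j : ℤ)))
    (h2 : ∀ j : ℕ, (v j).coeff (-(j : ℤ)) = 1) : Submodule.span R (Set.range v) = M := by
  apply le_antisymm
  · rw [Submodule.span_le]
    rintro _ ⟨j, rfl⟩
    exact h0 j
  · have key : ∀ n : ℕ, ∀ m ∈ M, m ∈ LV R (-(n : ℤ) + 1) → m ∈ Submodule.span R (Set.range v) := by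
      intro n
      induction n with
      | zero =>
        intro m hm hm1
        rw [hM m hm (by simpa using hm1)]
        exact zero_mem _
      | succ n ih =>
        intro m hm hm1
        have h3 : m - m.coeff (-(n : ℤ)) • v n ∈ LV R (-(n : ℤ) + 1) := by
          intro i hi
          rw [HahnSeries.coeff_sub, HahnSeries.coeff_smul]
          by_cases h : i = -(n : ℤ)
          · rw [h, h2, smul_eq_mul, mul_one, sub_self]
          · rw [hm1 i (by push_cast; omega), h1 n i (by omega), smul_zero, sub_zero]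
        have h4 := ih _ (sub_mem hm (Submodule.smul_mem _ _ (h0 n))) h3
        have h5 := add_mem h4 (Submodule.smul_mem _ (m.coeff (-(n : ℤ)))
          (Submodule.subset_span (Set.mem_range_self n)))
        rwa [sub_add_cancel] at h5
    intro m hm
    obtain ⟨n, hn⟩ := exists_mem_LV m
    refine key (n + 1) m hm ?_
    have : (-((n + 1 : ℕ) : ℤ) + 1) = -(n : ℤ) := by push_cast; ring
    rw [this]
    exact hn

end TB

section Exists

/-- the elements of the big cell subspace with a given principal part -/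
theorem exists_of_isCompl {M : Submodule R (LaurentSeries R)} (hM : IsCompl M (LV R 1))
    (x : LaurentSeries R) : ∃ m ∈ M, m - x ∈ LV R 1 := by
  have h1 : x ∈ M ⊔ LV R 1 := by rw [hM.sup_eq_top]; trivial
  obtain ⟨m, hm, y, hy, hmy⟩ := Submodule.mem_sup.1 h1
  refine ⟨m, hm, ?_⟩
  rw [← hmy]
  simpa using hy

theorem eq_zero_of_isCompl {M : Submodule R (LaurentSeries R)} (hM : IsCompl M (LV R 1)) :
    ∀ m ∈ M, m ∈ LV R 1 → m = 0 := fun m hm hm1 => by
  have : m ∈ M ⊓ LV R 1 := ⟨hm, hm1⟩
  rwa [hM.inf_eq_bot, Submodule.mem_bot] at this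

theorem exists_w {M : Submodule R (LaurentSeries R)} (hM : IsCompl M (LV R 1)) (j : ℕ) :
    ∃ m ∈ M, m ∈ LV R (-(j : ℤ)) ∧ m.coeff (-(j : ℤ)) = 1 := by
  obtain ⟨m, hm, hx⟩ := exists_of_isCompl hM (single (-(j : ℤ)) 1)
  refine ⟨m, hm, fun i hi => ?_, ?_⟩
  · have h1 := hx i (by omega)
    rw [HahnSeries.coeff_sub, coeff_single, if_neg (ne_of_lt hi), sub_zero] at h1
    exact h1
  · have h1 := hx (-(j : ℤ)) (by omega)
    rw [HahnSeries.coeff_sub, coeff_single, if_pos rfl, sub_eq_zero] at h1
    exact h1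

end Exists

section Pow

variable {a : LaurentSeries R} {d : ℕ}

theorem pow_mem_LV (ha : a ∈ LV R (-(d : ℤ))) (q : ℕ) : a ^ q ∈ LV R (-((q * d : ℕ) : ℤ)) := by
  induction q with
  | zero => simpa using one_mem_LV
  | succ q ih =>
    rw [pow_succ]
    have h1 := mul_mem_LV ih ha
    have h2 : (-((q * d : ℕ) : ℤ) + -(d : ℤ)) = -(((q + 1) * d : ℕ) : ℤ) := by push_cast; ring
    rwa [h2] at h1

theorem pow_coeff (ha : a ∈ LV R (-(d : ℤ))) (ha1 : a.coeff (-(d : ℤ)) = 1) (q : ℕ) :
    (a ^ q).coeff (-((q * d : ℕ) : ℤ)) = 1 := by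
  induction q with
  | zero =>
    rw [pow_zero, zero_mul, Nat.cast_zero, neg_zero, ← single_zero_one, coeff_single, if_pos rfl]
  | succ q ih =>
    rw [pow_succ]
    have h1 := coeff_mul_bot (pow_mem_LV ha q) ha
    have h2 : (-((q * d : ℕ) : ℤ) + -(d : ℤ)) = -(((q + 1) * d : ℕ) : ℤ) := by push_cast; ring
    rw [h2, ih, ha1, one_mul] at h1
    exact h1

end Pow

section Free

variable {Q : Type*} [AddCommGroup Q] [Module R[X] Q]

/-- `w 0, .., w (d - 1)` generate over `R[X]` -/
theorem free_finite (i : Q →+ LaurentSeries R) (hi : Injective i) (a : LaurentSeries R)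
    (hsm : ∀ (p : R[X]) (m : Q), i (p • m) = Polynomial.aeval a p * i m)
    {M : Submodule R (LaurentSeries R)} (hr : ∀ m, i m ∈ M) (hr' : ∀ x ∈ M, ∃ m, i m = x)
    (hM : IsCompl M (LV R 1)) {d : ℕ} (hd : 0 < d) (ha : a ∈ LV R (-(d : ℤ)))
    (ha1 : a.coeff (-(d : ℤ)) = 1) : Module.Free R[X] Q ∧ Module.Finite R[X] Q := by
  choose w hw0 hw1 hw2 using exists_w hM
  choose ww hww using hr'
  have hX : ∀ (q : ℕ) (m : Q), i ((Polynomial.X ^ q : R[X]) • m) = a ^ q * i m := by
    intro q m
    rw [hsm, map_pow, Polynomial.aeval_X]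
  have hstab : ∀ (q : ℕ), ∀ m ∈ M, a ^ q * m ∈ M := by
    intro q m hm
    rw [← hww m hm, ← hX]
    exact hr _
  -- the triangular family
  let v : ℕ → LaurentSeries R := fun j => a ^ (j / d) * w (j % d)
  have hcast : ∀ j : ℕ, -((j / d * d : ℕ) : ℤ) + -((j % d : ℕ) : ℤ) = -(j : ℤ) := by
    intro j
    have := Nat.div_add_mod' j d
    omega
  have hv0 : ∀ j, v j ∈ M := fun j => hstab _ _ (hw0 (j % d))
  have hv1 : ∀ j : ℕ, v j ∈ LV R (-(j : ℤ)) := fun j => by
    have := mul_mem_LV (pow_mem_LV ha (j / d)) (hw1 (j % d))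
    rwa [hcast] at this
  have hv2 : ∀ j : ℕ, (v j).coeff (-(j : ℤ)) = 1 := fun j => by
    have := coeff_mul_bot (pow_mem_LV ha (j / d)) (hw1 (j % d))
    rwa [hcast, pow_coeff ha ha1, hw2, one_mul] at this
  have hli := tri_linearIndependent hv1 hv2
  have hsp := tri_span (eq_zero_of_isCompl hM) hv0 hv1 hv2
  let w' : Fin d → Q := fun i => ww (w i) (hw0 i)
  have hw' : ∀ j : Fin d, i (w' j) = w j := fun j => hww _ _
  have hC : ∀ (r : R) (m : Q), i (Polynomial.C r • m) = r • i m := by
    intro r m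
    rw [hsm, Polynomial.aeval_C]
    exact (Algebra.smul_def r (i m)).symm
  -- independence
  have hind : LinearIndependent R[X] w' := by
    refine (Fintype.linearIndependent_iff (R := R[X]) (v := w')).2 ?_
    intro g hg
    obtain ⟨N, hN⟩ : ∃ N : ℕ, ∀ i, (g i).natDegree < N :=
      ⟨(∑ i, (g i).natDegree) + 1, fun i => Nat.lt_succ_of_le
        (Finset.single_le_sum (f := fun i => (g i).natDegree) (fun _ _ => Nat.zero_le _)
          (Finset.mem_univ i))⟩
    have h3 : ∑ j ∈ Finset.range (N * d), (g ⟨j % d, Nat.mod_lt j hd⟩).coeff (j / d) • v j = 0 := by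
      have h4 := congrArg i hg
      rw [map_sum, map_zero] at h4
      rw [← h4]
      have h5 : ∀ l : Fin d, i (g l • w' l) =
          ∑ q ∈ Finset.range N, (g l).coeff q • (a ^ q * w l) := by
        intro l
        rw [hsm, Polynomial.aeval_eq_sum_range' (hN l), Finset.sum_mul, hw']
        refine Finset.sum_congr rfl fun q _ => ?_
        rw [smul_mul_assoc]
      rw [Finset.sum_congr rfl fun i _ => h5 i, ← Finset.sum_product']
      symm
      refine Finset.sum_nbij' (fun p : Fin d × ℕ => p.2 * d + p.1)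
        (fun j => (⟨j % d, Nat.mod_lt j hd⟩, j / d)) ?_ ?_ ?_ ?_ ?_
      · rintro ⟨i, q⟩ hp
        rw [Finset.mem_product, Finset.mem_range] at hp
        rw [Finset.mem_range]
        have h7 : q + 1 ≤ N := hp.2
        have h8 : (q + 1) * d ≤ N * d := Nat.mul_le_mul_right d h7
        have h9 := i.2
        dsimp only
        rw [add_mul, one_mul] at h8
        omega
      · intro j hj
        rw [Finset.mem_range] at hj
        rw [Finset.mem_product, Finset.mem_range]
        exact ⟨Finset.mem_univ _, Nat.div_lt_of_lt_mul (by rwa [mul_comm])⟩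
      · rintro ⟨i, q⟩ _
        ext
        · dsimp only
          rw [add_comm, Nat.add_mul_mod_self_right, Nat.mod_eq_of_lt i.2]
        · dsimp only
          rw [add_comm, Nat.add_mul_div_right _ _ hd, Nat.div_eq_of_lt i.2, zero_add]
      · intro j _
        exact Nat.div_add_mod' j d
      · rintro ⟨i, q⟩ _
        have h7 : (q * d + (i : ℕ)) % d = i := by
          rw [add_comm, Nat.add_mul_mod_self_right, Nat.mod_eq_of_lt i.2]
        have h8 : (q * d + (i : ℕ)) / d = q := by
          rw [add_comm, Nat.add_mul_div_right _ _ hd, Nat.div_eq_of_lt i.2, zero_add]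
        have h9 : (⟨(q * d + (i : ℕ)) % d, Nat.mod_lt _ hd⟩ : Fin d) = i := Fin.ext h7
        simp only [v, h7, h8, h9]
    intro i
    ext q
    rw [Polynomial.coeff_zero]
    by_cases hq : q < N
    · have h4 := linearIndependent_iff'.1 hli (Finset.range (N * d)) _ h3 (q * d + i) (by
        rw [Finset.mem_range]
        have h8 : (q + 1) * d ≤ N * d := Nat.mul_le_mul_right d hq
        have h9 := i.2
        rw [add_mul, one_mul] at h8
        omega)
      have h7 : (q * d + (i : ℕ)) % d = i := by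
        rw [add_comm, Nat.add_mul_mod_self_right, Nat.mod_eq_of_lt i.2]
      have h8 : (q * d + (i : ℕ)) / d = q := by
        rw [add_comm, Nat.add_mul_div_right _ _ hd, Nat.div_eq_of_lt i.2, zero_add]
      have h9 : (⟨(q * d + (i : ℕ)) % d, Nat.mod_lt _ hd⟩ : Fin d) = i := Fin.ext h7
      simpa only [h8, h9] using h4
    · exact Polynomial.coeff_eq_zero_of_natDegree_lt (lt_of_lt_of_le (hN i) (not_lt.1 hq))
  -- generation
  have hspan : ⊤ ≤ Submodule.span R[X] (Set.range w') := by
    let T : Submodule R (LaurentSeries R) :=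
      { carrier := {x | ∃ m : Q, m ∈ Submodule.span R[X] (Set.range w') ∧ i m = x}
        zero_mem' := ⟨0, zero_mem _, map_zero i⟩
        add_mem' := by
          rintro _ _ ⟨m, hm, rfl⟩ ⟨m', hm', rfl⟩
          exact ⟨m + m', add_mem hm hm', map_add i _ _⟩
        smul_mem' := by
          rintro r _ ⟨m, hm, rfl⟩
          exact ⟨Polynomial.C r • m, Submodule.smul_mem _ _ hm, hC r m⟩ }
    have hT : M ≤ T := by
      rw [← hsp, Submodule.span_le]
      rintro _ ⟨j, rfl⟩
      refine ⟨(Polynomial.X ^ (j / d) : R[X]) • w' ⟨j % d, Nat.mod_lt j hd⟩,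
        Submodule.smul_mem _ _ (Submodule.subset_span ⟨_, rfl⟩), ?_⟩
      rw [hX, hw']
    intro m _
    obtain ⟨m', hm', h⟩ := hT (hr m)
    rwa [← hi h]
  have b := Module.Basis.mk hind hspan
  exact ⟨Module.Free.of_basis b, Module.Finite.of_basis b⟩

end Free

end Fermat.Agent.J25.I
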