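import Fermat.Agent.H02J.Inv3
import Fermat.Agent.H02J.Tri
import Fermat.Agent.J25.Basic

/-!
# Base change of the points of the chart, finiteness
-/

set_option autoImplicit false

noncomputable section

namespace Fermat.Agent.J25.I

attribute [-instance] HahnSeries.powerSeriesAlgebra

open HahnSeries Function Polynomial
open scoped TensorProduct

universe u

variable {k : Type u} [Field k] {A : Type u} [CommRing A] [Algebra k A]
  {e : A →ₐ[k] LaurentSeries k} {R : Type u} [CommRing R] [Algebra k R]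

section Poly

/-- the `R[X]`-algebra `R ⊗ A` -/
abbrev pAlg (R : Type u) [CommRing R] [Algebra k R] (a : A) : Algebra R[X] (R ⊗[k] A) :=
  (Polynomial.aeval (R := R) ((1 : R) ⊗ₜ[k] a)).toRingHom.toAlgebra

/-- the `R[X]`-module structure on the points of the chart -/
abbrev pMod (a : A) (P : WPt e R) : Module R[X] P.Carrier :=
  Module.compHom P.Carrier (Polynomial.aeval (R := R) ((1 : R) ⊗ₜ[k] a)).toRingHom

theorem finite_RX (a : A) (h : (Polynomial.aeval (R := k) a).toRingHom.Finite) :
    (Polynomial.aeval (R := R) ((1 : R) ⊗ₜ[k] a)).toRingHom.Finite := by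
  letI : Algebra k[X] A := (Polynomial.aeval (R := k) a).toRingHom.toAlgebra
  letI := pAlg (k := k) R a
  obtain ⟨s, hs⟩ : (⊤ : Submodule k[X] A).FG := h.fg_top
  classical
  change Module.Finite R[X] (R ⊗[k] A)
  refine ⟨⟨s.image (fun x => (1 : R) ⊗ₜ[k] x), ?_⟩⟩
  rw [eq_top_iff]
  have h1 : ∀ x : A, (1 : R) ⊗ₜ[k] x ∈
      Submodule.span R[X] ((s.image (fun x => (1 : R) ⊗ₜ[k] x) : Finset (R ⊗[k] A)) : Set _) := by
    intro x
    have hx : x ∈ Submodule.span k[X] (s : Set A) := by rw [hs]; trivial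
    induction hx using Submodule.span_induction with
    | mem x hx =>
      refine Submodule.subset_span ?_
      rw [Finset.coe_image]
      exact ⟨x, hx, rfl⟩
    | zero => rw [TensorProduct.tmul_zero]; exact zero_mem _
    | add x y _ _ hx hy => rw [TensorProduct.tmul_add]; exact add_mem hx hy
    | smul p x _ hx =>
      have h2 : (1 : R) ⊗ₜ[k] (p • x) = (p.map (algebraMap k R)) • ((1 : R) ⊗ₜ[k] x) := by
        change (1 : R) ⊗ₜ[k] (Polynomial.aeval a p * x) =
          Polynomial.aeval ((1 : R) ⊗ₜ[k] a) (p.map (algebraMap k R)) * ((1 : R) ⊗ₜ[k] x)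
        rw [Polynomial.aeval_map_algebraMap]
        have h3 : Polynomial.aeval ((1 : R) ⊗ₜ[k] a) p = (1 : R) ⊗ₜ[k] Polynomial.aeval a p := by
          have := Polynomial.aeval_algHom_apply
            (Algebra.TensorProduct.includeRight : A →ₐ[k] R ⊗[k] A) a p
          exact this
        rw [h3, Algebra.TensorProduct.tmul_mul_tmul, one_mul]
      rw [h2]
      exact Submodule.smul_mem _ _ hx
  intro y _
  induction y using TensorProduct.induction_on with
  | zero => exact zero_mem _
  | add x y hx hy => exact add_mem (hx trivial) (hy trivial)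
  | tmul r x =>
    have h2 : r ⊗ₜ[k] x = (Polynomial.C r : R[X]) • ((1 : R) ⊗ₜ[k] x) := by
      change r ⊗ₜ[k] x = Polynomial.aeval ((1 : R) ⊗ₜ[k] a) (Polynomial.C r) * ((1 : R) ⊗ₜ[k] x)
      rw [Polynomial.aeval_C, Algebra.TensorProduct.algebraMap_apply,
        Algebra.TensorProduct.tmul_mul_tmul, one_mul, mul_one]
      rfl
    rw [h2]
    exact Submodule.smul_mem _ _ (h1 x)

variable (P : WPt e R)

theorem exR_one_tmul (a : A) : exR e R ((1 : R) ⊗ₜ[k] a) = ex e R a := by
  rw [exR_tmul, one_smul]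

theorem ex_coeff_bot {a : A} {d : ℕ} (ha : (e a).coeff (-(d : ℤ)) = 1) :
    (ex e R a).coeff (-(d : ℤ)) = 1 := by
  rw [ex_apply, lmap_coeff, ha, map_one]

/-- the points of the chart are free over `R[X]` -/
theorem free_carrier {a : A} {d : ℕ} (hd : 0 < d) (had : e a ∈ LV k (-(d : ℤ)))
    (ha : (e a).coeff (-(d : ℤ)) = 1) :
    letI := pMod a P
    Module.Free R[X] P.Carrier ∧ Module.Finite R[X] P.Carrier := by
  letI := pMod a P
  refine free_finite (P.incl : P.Carrier →+ LaurentSeries R) P.incl_injective (ex e R a) ?_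
    (M := P.M) (fun m => P.incl_mem m) (fun x hx => ⟨P.elt x hx, rfl⟩) P.compl hd
    (ex_mem_LV e had) (ex_coeff_bot ha)
  intro p m
  change P.incl (Polynomial.aeval ((1 : R) ⊗ₜ[k] a) p • m) = _
  rw [P.incl_smul, ← exR_one_tmul, Polynomial.aeval_algHom_apply]
  rfl

theorem fp_carrier {a : A} (hfin : (Polynomial.aeval (R := k) a).toRingHom.Finite)
    {d : ℕ} (hd : 0 < d) (had : e a ∈ LV k (-(d : ℤ)))
    (ha : (e a).coeff (-(d : ℤ)) = 1) : Module.FinitePresentation (R ⊗[k] A) P.Carrier := by
  letI := pMod a P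
  letI := pAlg (k := k) R a
  haveI : IsScalarTower R[X] (R ⊗[k] A) P.Carrier := ⟨fun p x m => by
    change (Polynomial.aeval ((1 : R) ⊗ₜ[k] a) p * x) • m =
      Polynomial.aeval ((1 : R) ⊗ₜ[k] a) p • (x • m)
    rw [mul_smul]⟩
  haveI : Module.Finite R[X] (R ⊗[k] A) := finite_RX a hfin
  haveI := (free_carrier P hd had ha).1
  haveI := (free_carrier P hd had ha).2
  haveI : Module.FinitePresentation R[X] P.Carrier := Module.finitePresentation_of_projective _ _
  exact fp_of_fp (P := R[X])

instance : Module.Free R P.Carrier := Module.Free.of_basis P.basis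

end Poly

end Fermat.Agent.J25.I
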