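import Fermat.Agent.H02J.Inv4

/-!
# Base change of the points of the chart; projectivity
-/

set_option autoImplicit false

noncomputable section

namespace Fermat.Agent.J25.I

attribute [-instance] HahnSeries.powerSeriesAlgebra

open HahnSeries Function Polynomial
open scoped TensorProduct

universe u

variable {k : Type u} [Field k] {A : Type u} [CommRing A] [Algebra k A]
  {e : A →ₐ[k] LaurentSeries k} {R : Type u} [CommRing R] [Algebra k R]

section BC

variable {R' : Type u} [CommRing R'] [Algebra k R'] (φ : R →ₐ[k] R')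

/-- base change of the ring -/
abbrev bcRing : R ⊗[k] A →+* R' ⊗[k] A :=
  (Algebra.TensorProduct.map φ (AlgHom.id k A) : R ⊗[k] A →ₐ[k] R' ⊗[k] A).toRingHom

/-- base change, as an algebra -/
abbrev bcAlg (A : Type u) [CommRing A] [Algebra k A] : Algebra (R ⊗[k] A) (R' ⊗[k] A) :=
  (bcRing (A := A) φ).toAlgebra

variable (P : WPt e R)

/-- the module structure over `R ⊗ A` on the base change of a point -/
abbrev bcMod : Module (R ⊗[k] A) (P.map φ).Carrier :=
  Module.compHom (P.map φ).Carrier (bcRing (A := A) φ)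

/-- the base change map, semilinear -/
def bcl : letI := bcMod φ P
    P.Carrier →ₗ[R ⊗[k] A] (P.map φ).Carrier :=
  letI := bcMod φ P
  { toFun := fun m => (P.map φ).elt (lmap (φ : R →+* R') (P.incl m)) (P.lmap_mem φ (P.incl_mem m))
    map_add' := fun m n => (P.map φ).incl_injective (by
      change lmap (φ : R →+* R') (P.incl (m + n)) =
        lmap (φ : R →+* R') (P.incl m) + lmap (φ : R →+* R') (P.incl n)
      rw [map_add, map_add])
    map_smul' := fun x m => (P.map φ).incl_injective (by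
      change lmap (φ : R →+* R') (P.incl (x • m)) =
        (P.map φ).incl ((bcRing (A := A) φ x) • _)
      rw [P.incl_smul, map_mul, lmap_exR, WPt.incl_smul]
      rfl) }

theorem incl_bcl (m : P.Carrier) : (P.map φ).incl (bcl φ P m) = lmap (φ : R →+* R') (P.incl m) := rfl

/-- the comparison map -/
def bcΦ : letI := bcAlg φ A
    (R' ⊗[k] A) ⊗[R ⊗[k] A] P.Carrier →ₗ[R' ⊗[k] A] (P.map φ).Carrier :=
  letI := bcAlg φ A
  letI := bcMod φ P
  haveI : IsScalarTower (R ⊗[k] A) (R' ⊗[k] A) (P.map φ).Carrier := ⟨fun x y m => by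
    change ((bcRing (A := A) φ x) * y) • m = (bcRing (A := A) φ x) • (y • m)
    rw [mul_smul]⟩
  (bcl φ P).liftBaseChange (R' ⊗[k] A)

theorem bcΦ_tmul (t : R' ⊗[k] A) (m : P.Carrier) :
    letI := bcAlg φ A
    bcΦ φ P (t ⊗ₜ[R ⊗[k] A] m) = t • bcl φ P m := rfl

theorem bcl_basis (j : ℕ) : bcl φ P (P.basis j) = (P.map φ).basis j := by
  apply (P.map φ).incl_injective
  rw [incl_bcl, P.incl_basis, WPt.incl_basis, WPt.map_wb]

theorem mem_span_basis (y : letI := bcAlg φ A; (R' ⊗[k] A) ⊗[R ⊗[k] A] P.Carrier) :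
    letI := bcAlg φ A
    y ∈ Submodule.span R' (Set.range fun j => ((1 : R' ⊗[k] A) ⊗ₜ[R ⊗[k] A] P.basis j)) := by
  letI := bcAlg φ A
  have h1 : ∀ m : P.Carrier, ((1 : R' ⊗[k] A) ⊗ₜ[R ⊗[k] A] m) ∈
      Submodule.span R' (Set.range fun j => ((1 : R' ⊗[k] A) ⊗ₜ[R ⊗[k] A] P.basis j)) := by
    intro m
    have hm : m ∈ Submodule.span R (Set.range P.basis) := by
      rw [P.basis.span_eq]; trivial
    induction hm using Submodule.span_induction with
    | mem x hx =>
      obtain ⟨j, rfl⟩ := hx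
      exact Submodule.subset_span ⟨j, rfl⟩
    | zero => rw [TensorProduct.tmul_zero]; exact zero_mem _
    | add x y _ _ hx hy => rw [TensorProduct.tmul_add]; exact add_mem hx hy
    | smul r x _ hx =>
      have h2 : ((1 : R' ⊗[k] A) ⊗ₜ[R ⊗[k] A] (r • x)) = (φ r) •
          ((1 : R' ⊗[k] A) ⊗ₜ[R ⊗[k] A] x) := by
        have h3 : r • x = (r ⊗ₜ[k] (1 : A) : R ⊗[k] A) • x := by
          apply P.incl_injective
          rw [P.incl_smul, map_smul, exR_tmul, map_one, smul_mul_assoc, one_mul]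
        rw [h3, ← TensorProduct.smul_tmul, TensorProduct.smul_tmul']
        congr 1
        change bcRing φ (r ⊗ₜ[k] (1 : A)) * 1 = φ r • (1 : R' ⊗[k] A)
        rw [mul_one, Algebra.smul_def, mul_one, Algebra.TensorProduct.algebraMap_apply]
        simp [bcRing]
      rw [h2]
      exact Submodule.smul_mem _ _ hx
  induction y using TensorProduct.induction_on with
  | zero => exact zero_mem _
  | add x y hx hy => exact add_mem hx hy
  | tmul t m =>
    induction t using TensorProduct.induction_on with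
    | zero => rw [TensorProduct.zero_tmul]; exact zero_mem _
    | add x y hx hy => rw [TensorProduct.add_tmul]; exact add_mem hx hy
    | tmul r' a =>
      have h2 : ((r' ⊗ₜ[k] a : R' ⊗[k] A) ⊗ₜ[R ⊗[k] A] m) = r' •
          ((1 : R' ⊗[k] A) ⊗ₜ[R ⊗[k] A] (((1 : R) ⊗ₜ[k] a : R ⊗[k] A) • m)) := by
        rw [← TensorProduct.smul_tmul, TensorProduct.smul_tmul']
        congr 1
        change r' ⊗ₜ[k] a = r' • (bcRing φ ((1 : R) ⊗ₜ[k] a) * 1)
        rw [mul_one]
        simp [bcRing, TensorProduct.smul_tmul']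
      rw [h2]
      exact Submodule.smul_mem _ _ (h1 _)

theorem bcΦ_injective : Injective (bcΦ φ P) := by
  letI := bcAlg φ A
  rw [injective_iff_map_eq_zero]
  intro y hy
  obtain ⟨c, rfl⟩ := Finsupp.mem_span_range_iff_exists_finsupp.1 (mem_span_basis φ P y)
  have h1 : ∀ (r : R') (z : (R' ⊗[k] A) ⊗[R ⊗[k] A] P.Carrier),
      bcΦ φ P (r • z) = r • bcΦ φ P z := by
    intro r z
    have h2 : r • z = (r ⊗ₜ[k] (1 : A) : R' ⊗[k] A) • z := by
      rw [← algebraMap_smul (R' ⊗[k] A) r z]
      rfl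
    rw [h2, map_smul]
    apply (P.map φ).incl_injective
    rw [WPt.incl_smul, map_smul, exR_tmul, map_one, smul_mul_assoc, one_mul]
  have h3 : bcΦ φ P (c.sum fun j r => r • ((1 : R' ⊗[k] A) ⊗ₜ[R ⊗[k] A] P.basis j)) =
      Finsupp.linearCombination R' (P.map φ).basis c := by
    rw [Finsupp.linearCombination_apply, Finsupp.sum, Finsupp.sum, map_sum]
    refine Finset.sum_congr rfl fun j _ => ?_
    rw [h1, bcΦ_tmul, one_smul, bcl_basis]
  rw [h3] at hy
  have h4 := linearIndependent_iff.1 (P.map φ).basis.linearIndependent c hy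
  rw [h4]
  simp

theorem bcΦ_surjective : Surjective (bcΦ φ P) := by
  letI := bcAlg φ A
  intro y
  have hy : y ∈ Submodule.span R' (Set.range (P.map φ).basis) := by
    rw [(P.map φ).basis.span_eq]; trivial
  induction hy using Submodule.span_induction with
  | mem x hx =>
    obtain ⟨j, rfl⟩ := hx
    exact ⟨1 ⊗ₜ P.basis j, by rw [bcΦ_tmul, one_smul, bcl_basis]⟩
  | zero => exact ⟨0, map_zero _⟩
  | add x y _ _ hx hy =>
    obtain ⟨x', rfl⟩ := hx
    obtain ⟨y', rfl⟩ := hy
    exact ⟨x' + y', map_add _ _ _⟩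
  | smul r x _ hx =>
    obtain ⟨x', rfl⟩ := hx
    refine ⟨(r ⊗ₜ[k] (1 : A) : R' ⊗[k] A) • x', ?_⟩
    rw [map_smul]
    apply (P.map φ).incl_injective
    rw [WPt.incl_smul, map_smul, exR_tmul, map_one, smul_mul_assoc, one_mul]

end BC

end Fermat.Agent.J25.I
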