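import Fermat.Agent.H02J.Inv5

/-!
# The points of the chart are projective over `R ⊗ A`
-/

set_option autoImplicit false

noncomputable section

namespace Fermat.Agent.J25.I

attribute [-instance] HahnSeries.powerSeriesAlgebra

open HahnSeries Function Polynomial
open scoped TensorProduct

universe u

variable {k : Type u} [Field k] {A : Type u} [CommRing A] [Algebra k A]
  {e : A →ₐ[k] LaurentSeries k} {R : Type u} [CommRing R] [Algebra k R]

/-- over a field, with `A_κ` a Dedekind domain -/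
theorem flat_of_field {κ : Type u} [Field κ] [Algebra k κ] (he : Injective e)
    [IsDedekindDomain (κ ⊗[k] A)] (φ : R →ₐ[k] κ) (P : WPt e R) :
    letI := bcAlg φ A
    Module.Flat (κ ⊗[k] A) ((κ ⊗[k] A) ⊗[R ⊗[k] A] P.Carrier) := by
  letI := bcAlg φ A
  rw [IsDedekindDomain.flat_iff_torsion_eq_bot, eq_bot_iff]
  intro y hy
  obtain ⟨t, ht⟩ := (Submodule.mem_torsion_iff y).1 hy
  have h1 : (t : κ ⊗[k] A) • bcΦ φ P y = 0 := by
    rw [← map_smul]
    have h2 : (t : κ ⊗[k] A) • y = 0 := ht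
    rw [h2, map_zero]
  have h2 := congrArg (P.map φ).incl h1
  rw [WPt.incl_smul, map_zero] at h2
  have h3 : exR e κ (t : κ ⊗[k] A) ≠ 0 := by
    intro h
    exact nonZeroDivisors.ne_zero t.2 (exR_injective e he (by rw [h, map_zero]))
  have h4 : bcΦ φ P y = 0 := (P.map φ).incl_injective (by
    rw [map_zero]
    exact (mul_eq_zero.1 h2).resolve_left h3)
  exact (bcΦ_injective φ P) (by rw [h4, map_zero])

theorem projective_carrier (he : Injective e)
    (hded : ∀ (κ : Type u) [Field κ] [IsAlgClosed κ] [Algebra k κ], IsDedekindDomain (κ ⊗[k] A))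
    {a : A} (hfin : (Polynomial.aeval (R := k) a).toRingHom.Finite)
    {d : ℕ} (hd : 0 < d) (had : e a ∈ LV k (-(d : ℤ)))
    (ha : (e a).coeff (-(d : ℤ)) = 1) (P : WPt e R) :
    Module.Projective (R ⊗[k] A) P.Carrier := by
  haveI := fp_carrier P hfin hd had ha
  refine projective_of_fibre (R := R) fun κ _ _ _ => ?_
  letI : Algebra k κ := ((algebraMap R κ).comp (algebraMap k R)).toAlgebra
  haveI : IsScalarTower k R κ := IsScalarTower.of_algebraMap_eq fun _ => rfl
  let φ : R →ₐ[k] κ := IsScalarTower.toAlgHom k R κ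
  letI := bcAlg φ A
  haveI := hded κ
  haveI : Module.Flat (κ ⊗[k] A) ((κ ⊗[k] A) ⊗[R ⊗[k] A] P.Carrier) := flat_of_field he φ P
  let T := (R ⊗[k] A) ⊗[R] κ
  let τ : κ ⊗[k] A →ₐ[k] T := Algebra.TensorProduct.lift
    ((Algebra.TensorProduct.includeRight : κ →ₐ[R] T).restrictScalars k)
    (((Algebra.TensorProduct.includeLeft : R ⊗[k] A →ₐ[R] T).restrictScalars k).comp
      (Algebra.TensorProduct.includeRight : A →ₐ[k] R ⊗[k] A))
    (fun _ _ => Commute.all _ _)
  letI : Algebra (κ ⊗[k] A) T := τ.toRingHom.toAlgebra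
  haveI : IsScalarTower (R ⊗[k] A) (κ ⊗[k] A) T := IsScalarTower.of_algebraMap_eq fun s => by
    change s ⊗ₜ[R] (1 : κ) = τ (bcRing (A := A) φ s)
    induction s using TensorProduct.induction_on with
    | zero => simp
    | add x y hx hy => rw [TensorProduct.add_tmul, hx, hy, map_add, map_add]
    | tmul r a =>
      have h1 : bcRing (A := A) φ (r ⊗ₜ[k] a) = (φ r) ⊗ₜ[k] a := by simp [bcRing]
      rw [h1]
      simp only [τ, Algebra.TensorProduct.lift_tmul]
      change _ = ((1 : R ⊗[k] A) ⊗ₜ[R] (φ r)) * (((1 : R) ⊗ₜ[k] a : R ⊗[k] A) ⊗ₜ[R] (1 : κ))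
      rw [Algebra.TensorProduct.tmul_mul_tmul, one_mul, mul_one]
      have h2 : φ r = r • (1 : κ) := by
        rw [Algebra.smul_def, mul_one]
        rfl
      rw [h2, TensorProduct.tmul_smul, TensorProduct.smul_tmul']
      congr 1
      rw [TensorProduct.smul_tmul', smul_eq_mul, mul_one]
  have e1 := TensorProduct.AlgebraTensorModule.cancelBaseChange (R ⊗[k] A) (κ ⊗[k] A) T T P.Carrier
  exact Module.Flat.of_linearEquiv e1.symm

end Fermat.Agent.J25.I
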