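import Fermat.Agent.H02J.Inv6
import Fermat.Agent.J25.ChartFT

/-!
# The points of the chart are invertible
-/

set_option autoImplicit false

noncomputable section

namespace Fermat.Agent.J25.I

attribute [-instance] HahnSeries.powerSeriesAlgebra

open HahnSeries Function Polynomial
open scoped TensorProduct

universe u

theorem mem_nonZeroDivisors_of_coeff {R : Type u} [CommRing R] {x : LaurentSeries R} {n : ℤ}
    (hx : x ∈ LV R n) (h1 : x.coeff n = 1) : x ∈ nonZeroDivisors (LaurentSeries R) := by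
  have key : ∀ y : LaurentSeries R, x * y = 0 → y = 0 := by
    intro y hy
    by_contra hy0
    have h2 : y ∈ LV R y.order := fun i hi => coeff_eq_zero_of_lt_order hi
    have h3 := coeff_mul_bot hx h2
    rw [hy, h1, one_mul, HahnSeries.coeff_zero] at h3
    exact hy0 (HahnSeries.coeff_order_eq_zero.1 h3.symm)
  rw [mem_nonZeroDivisors_iff]
  exact ⟨key, fun y hy => key y (by rw [mul_comm]; exact hy)⟩

theorem aeval_mem_LV {R : Type u} [CommRing R] {x : LaurentSeries R} {d : ℕ}
    (hx : x ∈ LV R (-(d : ℤ))) (h1 : x.coeff (-(d : ℤ)) = 1) {p : R[X]} (hp : p.Monic)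
    (hd : 0 < d) :
    Polynomial.aeval x p ∈ LV R (-((p.natDegree * d : ℕ) : ℤ)) ∧
      (Polynomial.aeval x p).coeff (-((p.natDegree * d : ℕ) : ℤ)) = 1 := by
  have h2 : Polynomial.aeval x p = x ^ p.natDegree +
      ∑ i ∈ Finset.range p.natDegree, p.coeff i • x ^ i := by
    rw [Polynomial.aeval_eq_sum_range, Finset.sum_range_succ, add_comm]
    congr 1
    rw [show p.coeff p.natDegree = 1 from hp, one_smul]
  have h3 : ∀ j : ℤ, j ≤ -((p.natDegree * d : ℕ) : ℤ) →
      (∑ i ∈ Finset.range p.natDegree, p.coeff i • x ^ i : LaurentSeries R).coeff j = 0 := by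
    intro j hj
    rw [HahnSeries.coeff_sum]
    refine Finset.sum_eq_zero fun i hi => ?_
    rw [Finset.mem_range] at hi
    rw [HahnSeries.coeff_smul, pow_mem_LV hx i j ?_, smul_zero]
    have h4 : (i + 1) * d ≤ p.natDegree * d := Nat.mul_le_mul_right d hi
    rw [add_mul, one_mul] at h4
    have h5 : ((i * d + d : ℕ) : ℤ) ≤ ((p.natDegree * d : ℕ) : ℤ) := by exact_mod_cast h4
    push_cast at h5 hj ⊢
    have h6 : (0 : ℤ) < d := by exact_mod_cast hd
    linarith
  constructor
  · intro j hj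
    rw [h2, HahnSeries.coeff_add, h3 j hj.le, add_zero]
    exact pow_mem_LV hx _ j hj
  · rw [h2, HahnSeries.coeff_add, h3 _ le_rfl, add_zero]
    exact pow_coeff hx h1 _

variable {k : Type u} [Field k] {A : Type u} [CommRing A] [Algebra k A]
  {e : A →ₐ[k] LaurentSeries k} {R : Type u} [CommRing R] [Algebra k R] (P : WPt e R)

/-- the section `1` -/
def one' : P.Carrier := P.elt 1 P.one_mem

theorem incl_one' : P.incl (one' P) = 1 := rfl

theorem smul_one' (x : R ⊗[k] A) : P.incl (x • one' P) = exR e R x := by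
  rw [P.incl_smul, incl_one', mul_one]

/-- `M / A_R` is finite over `R` -/
theorem finite_quot (hfin : Module.Finite k (LaurentSeries k ⧸
    (LinearMap.range e.toLinearMap ⊔ LV k 1))) :
    Module.Finite R (P.Carrier ⧸ Submodule.span (R ⊗[k] A) {one' P}) := by
  classical
  obtain ⟨G, hG⟩ := exists_gaps hfin
  let N := Submodule.span (R ⊗[k] A) {one' P}
  refine ⟨⟨G.image (fun j => N.mkQ (P.basis j)), ?_⟩⟩
  rw [eq_top_iff]
  intro y _
  obtain ⟨m, rfl⟩ := N.mkQ_surjective y
  have hm : m ∈ Submodule.span R (Set.range P.basis) := by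
    rw [P.basis.span_eq]; trivial
  induction hm using Submodule.span_induction with
  | zero => rw [map_zero]; exact zero_mem _
  | add x y _ _ hx hy => rw [map_add]; exact add_mem (hx trivial) (hy trivial)
  | smul r x _ hx =>
    have h1 : N.mkQ (r • x) = r • N.mkQ x := rfl
    rw [h1]
    exact Submodule.smul_mem _ _ (hx trivial)
  | mem x hx =>
    obtain ⟨l, rfl⟩ := hx
    obtain ⟨α, κ, hακ⟩ := hG l
    have h1 := P.wb_eq hακ
    have h2 : P.basis l = ((1 : R) ⊗ₜ[k] α : R ⊗[k] A) • one' P +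
        ∑ j ∈ G, (algebraMap k R (κ j)) • P.basis j := by
      apply P.incl_injective
      rw [map_add, smul_one', exR_tmul, one_smul, map_sum, P.incl_basis, h1]
      congr 1
      refine Finset.sum_congr rfl fun j _ => ?_
      rw [map_smul, P.incl_basis, algebraMap_smul]
    rw [h2, map_add, map_sum]
    have h3 : N.mkQ (((1 : R) ⊗ₜ[k] α : R ⊗[k] A) • one' P) = 0 := by
      rw [Submodule.mkQ_apply, Submodule.Quotient.mk_eq_zero]
      exact Submodule.smul_mem _ _ (Submodule.mem_span_singleton_self _)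
    rw [h3, zero_add]
    refine Submodule.sum_mem _ fun j hj => ?_
    have h4 : N.mkQ (algebraMap k R (κ j) • P.basis j) =
      algebraMap k R (κ j) • N.mkQ (P.basis j) := rfl
    rw [h4]
    refine Submodule.smul_mem _ _ (Submodule.subset_span ?_)
    rw [Finset.coe_image]
    exact ⟨j, hj, rfl⟩

/-- **the bound**: a monic polynomial in `a` sends `M` to `A_R` -/
theorem exists_bound (a : A) (hfin : Module.Finite k (LaurentSeries k ⧸
    (LinearMap.range e.toLinearMap ⊔ LV k 1))) :
    ∃ p : R[X], p.Monic ∧ ∀ m : P.Carrier, ∃ s : R ⊗[k] A,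
      Polynomial.aeval ((1 : R) ⊗ₜ[k] a) p • m = s • one' P := by
  haveI := finite_quot P hfin
  let N := Submodule.span (R ⊗[k] A) {one' P}
  let f : Module.End R (P.Carrier ⧸ N) := Algebra.lsmul R R (P.Carrier ⧸ N) ((1 : R) ⊗ₜ[k] a)
  obtain ⟨p, hp, hp0⟩ := LinearMap.exists_monic_and_aeval_eq_zero R f
  refine ⟨p, hp, fun m => ?_⟩
  have h1 : Polynomial.aeval f p = Algebra.lsmul R R (P.Carrier ⧸ N)
      (Polynomial.aeval ((1 : R) ⊗ₜ[k] a) p) := Polynomial.aeval_algHom_apply _ _ _
  rw [hp0] at h1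
  have h2 := LinearMap.congr_fun h1.symm (N.mkQ m)
  have h3 : N.mkQ (Polynomial.aeval ((1 : R) ⊗ₜ[k] a) p • m) = 0 := h2
  rw [Submodule.mkQ_apply, Submodule.Quotient.mk_eq_zero, Submodule.mem_span_singleton] at h3
  obtain ⟨s, hs⟩ := h3
  exact ⟨s, hs.symm⟩

section

variable (he : Injective e)
    {a : A} {d : ℕ} (hd : 0 < d) (had : e a ∈ LV k (-(d : ℤ)))
    (ha : (e a).coeff (-(d : ℤ)) = 1)
    (hfin' : Module.Finite k (LaurentSeries k ⧸ (LinearMap.range e.toLinearMap ⊔ LV k 1)))

include hd had ha hfin' in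
theorem swap_carrier (g : Module.Dual (R ⊗[k] A) P.Carrier) (m m' : P.Carrier) :
    g m • m' = g m' • m := by
  obtain ⟨p, hp, hpm⟩ := exists_bound P a hfin'
  obtain ⟨s, hs⟩ := hpm m
  obtain ⟨s', hs'⟩ := hpm m'
  have e1 : exR e R (Polynomial.aeval ((1 : R) ⊗ₜ[k] a) p) = Polynomial.aeval (ex e R a) p := by
    rw [← exR_one_tmul, Polynomial.aeval_algHom_apply]
  have hD := mem_nonZeroDivisors_of_coeff
    (aeval_mem_LV (ex_mem_LV e (R := R) had) (ex_coeff_bot ha) hp hd).1
    (aeval_mem_LV (ex_mem_LV e (R := R) had) (ex_coeff_bot ha) hp hd).2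
  have hs1 := congrArg P.incl hs
  have hs1' := congrArg P.incl hs'
  rw [smul_one', P.incl_smul] at hs1 hs1'
  have h3 : s' • m = s • m' := by
    apply P.incl_injective
    rw [P.incl_smul, P.incl_smul, ← hs1, ← hs1']
    ring
  have h4 : s' * g m = s * g m' := by
    have := congrArg g h3
    rwa [map_smul, map_smul, smul_eq_mul, smul_eq_mul] at this
  apply P.incl_injective
  rw [← sub_eq_zero]
  refine (mem_nonZeroDivisors_iff.1 hD).1 _ ?_
  have h5 : exR e R s' * exR e R (g m) = exR e R s * exR e R (g m') := by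
    rw [← map_mul, h4, map_mul]
  rw [mul_sub, P.incl_smul, P.incl_smul, ← e1, sub_eq_zero]
  calc exR e R (Polynomial.aeval ((1 : R) ⊗ₜ[k] a) p) * (exR e R (g m) * P.incl m')
      = exR e R (g m) * (exR e R (Polynomial.aeval ((1 : R) ⊗ₜ[k] a) p) * P.incl m') := by ring
    _ = exR e R s' * exR e R (g m) := by rw [hs1', mul_comm]
    _ = exR e R (g m') * (exR e R (Polynomial.aeval ((1 : R) ⊗ₜ[k] a) p) * P.incl m) := by
        rw [h5, hs1, mul_comm]
    _ = _ := by ring

include he hd had ha hfin' in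
theorem exists_inv_carrier [Module.Finite (R ⊗[k] A) P.Carrier]
    [Module.Projective (R ⊗[k] A) P.Carrier] :
    Module.Invertible (R ⊗[k] A) P.Carrier ∧
    ∃ (n : ℕ) (y : Fin n → R ⊗[k] A) (w : Fin n → LaurentSeries R), (∀ i, w i ∈ P.M) ∧
      (∀ i, ∀ m ∈ P.M, ∃ s : R ⊗[k] A, exR e R s = exR e R (y i) * m) ∧
      ∑ i, exR e R (y i) * w i = 1 := by
  have h2 := swap_carrier P hd had ha hfin'
  obtain ⟨n, f, w, hfw⟩ := exists_trace_one (S := R ⊗[k] A) (M := P.Carrier) (fun x hx hxM => by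
    obtain ⟨r, hr1, hr2⟩ := Submodule.exists_sub_one_mem_and_smul_eq_zero_of_fg_of_le_smul x
      (⊤ : Submodule (R ⊗[k] A) P.Carrier) Module.Finite.fg_top (le_of_eq hxM.symm)
    have h3 := congrArg P.incl (hr2 (one' P) trivial)
    rw [smul_one', map_zero] at h3
    have h4 : r = 0 := exR_injective e he (by rw [h3, map_zero])
    rw [h4, zero_sub, neg_mem_iff] at hr1
    exact hx.ne_top ((Ideal.eq_top_iff_one x).2 hr1))
  refine ⟨invertible_of f w hfw h2, ?_⟩
  have h5 : ∀ (g : Module.Dual (R ⊗[k] A) P.Carrier) (m : P.Carrier),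
      exR e R (g m) = exR e R (g (one' P)) * P.incl m := by
    intro g m
    have := congrArg P.incl (h2 g m (one' P))
    rwa [smul_one', P.incl_smul] at this
  refine ⟨n, fun i => f i (one' P), fun i => P.incl (w i), fun i => P.incl_mem _,
    fun i m hm => ⟨f i (P.elt m hm), h5 (f i) (P.elt m hm)⟩, ?_⟩
  have h6 : ∑ i, exR e R (f i (w i)) = 1 := by
    rw [← map_sum, hfw, map_one]
  rw [← h6]
  exact Finset.sum_congr rfl fun i _ => (h5 (f i) (w i)).symm

end

end Fermat.Agent.J25.I
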