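import Fermat.Agent.H02J.Inv7
import Fermat.Agent.J25.Hub

/-!
# From the chart to the group of invertible fractional ideals
-/

set_option autoImplicit false

noncomputable section

namespace Fermat.Agent.J25.I

attribute [-instance] HahnSeries.powerSeriesAlgebra

open HahnSeries Function Polynomial
open scoped TensorProduct

universe u

variable {k : Type u} [Field k] {A : Type u} [CommRing A] [Algebra k A]
  {e : A →ₐ[k] LaurentSeries k} {R : Type u} [CommRing R] [Algebra k R]

/-- the hypotheses on the affine curve -/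
structure Hyp (e : A →ₐ[k] LaurentSeries k) (a : A) (d : ℕ) : Prop where
  inj : Injective e
  ded : ∀ (κ : Type u) [Field κ] [IsAlgClosed κ] [Algebra k κ], IsDedekindDomain (κ ⊗[k] A)
  fin : (Polynomial.aeval (R := k) a).toRingHom.Finite
  pos : 0 < d
  mem : e a ∈ LV k (-(d : ℤ))
  coeff : (e a).coeff (-(d : ℤ)) = 1
  H1 : Module.Finite k (LaurentSeries k ⧸ (LinearMap.range e.toLinearMap ⊔ LV k 1))

/-- the `A_R`-submodule of a point of the chart -/
def toSub (P : WPt e R) : Submodule (AR e R) (LaurentSeries R) where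
  carrier := P.M
  zero_mem' := P.M.zero_mem
  add_mem' := P.M.add_mem
  smul_mem' := by
    rintro ⟨c, t, rfl⟩ x hx
    exact P.exR_mul_mem t hx

theorem mem_toSub {P : WPt e R} {x : LaurentSeries R} : x ∈ toSub P ↔ x ∈ P.M := Iff.rfl

/-- the inverse -/
def toInv (P : WPt e R) : Submodule (AR e R) (LaurentSeries R) where
  carrier := {v | ∀ m ∈ P.M, v * m ∈ AR e R}
  zero_mem' m _ := by rw [zero_mul]; exact zero_mem _
  add_mem' hx hy m hm := by rw [add_mul]; exact add_mem (hx m hm) (hy m hm)
  smul_mem' c x hx m hm := by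
    rw [Subalgebra.smul_def, smul_eq_mul, mul_assoc]
    exact mul_mem c.2 (hx m hm)

theorem mem_toInv {P : WPt e R} {x : LaurentSeries R} :
    x ∈ toInv P ↔ ∀ m ∈ P.M, x * m ∈ AR e R := Iff.rfl

variable {a : A} {d : ℕ}

theorem module_props (H : Hyp e a d) (P : WPt e R) :
    Module.FinitePresentation (R ⊗[k] A) P.Carrier ∧ Module.Projective (R ⊗[k] A) P.Carrier ∧
      Module.Invertible (R ⊗[k] A) P.Carrier := by
  have h1 := fp_carrier P H.fin H.pos H.mem H.coeff
  have h2 := projective_carrier H.inj H.ded H.fin H.pos H.mem H.coeff P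
  exact ⟨h1, h2, (exists_inv_carrier P H.inj H.pos H.mem H.coeff H.H1).1⟩

theorem toSub_mul_toInv (H : Hyp e a d) (P : WPt e R) : toSub P * toInv P = 1 := by
  haveI := (module_props H P).1
  haveI := (module_props H P).2.1
  obtain ⟨n, y, w, hw, hy, h1⟩ := (exists_inv_carrier P H.inj H.pos H.mem H.coeff H.H1).2
  apply le_antisymm
  · rw [Submodule.mul_le]
    intro m hm v hv
    rw [mul_comm]
    exact Submodule.mem_one.2 ⟨⟨v * m, hv m hm⟩, rfl⟩
  · rw [Submodule.one_le, ← h1]
    refine Submodule.sum_mem _ fun i _ => ?_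
    have h2 : exR e R (y i) ∈ toInv P := fun m hm => by
      obtain ⟨s, hs⟩ := hy i m hm
      rw [← hs]
      exact ⟨s, rfl⟩
    have h3 := Submodule.mul_mem_mul (M := toSub P) (N := toInv P) (hw i) h2
    rwa [mul_comm (w i)] at h3

/-- the unit -/
def toUnit (H : Hyp e a d) (P : WPt e R) : (Submodule (AR e R) (LaurentSeries R))ˣ where
  val := toSub P
  inv := toInv P
  val_inv := toSub_mul_toInv H P
  inv_val := by rw [mul_comm]; exact toSub_mul_toInv H P

theorem pev_eq (p : R[X]) : pev e R a p = exR e R (Polynomial.aeval ((1 : R) ⊗ₜ[k] a) p) := by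
  rw [pev, ← exR_one_tmul, Polynomial.aeval_algHom_apply]

/-- **a point of the chart is an invertible fractional ideal trivial near `∞`** -/
def toG (H : Hyp e a d) (P : WPt e R) : G e (R := R) a :=
  ⟨toUnit H P, by
    obtain ⟨p, hp, hpm⟩ := exists_bound P a H.H1
    refine ⟨p, hp, fun m hm => ?_, fun m hm => ?_⟩
    · obtain ⟨s, hs⟩ := hpm (P.elt m hm)
      have h1 := congrArg P.incl hs
      rw [smul_one', P.incl_smul, WPt.incl_elt, ← pev_eq] at h1
      rw [h1]
      exact ⟨s, rfl⟩
    · have h1 : m * 1 ∈ AR e R := hm 1 P.one_mem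
      rw [mul_one] at h1
      refine mul_mem ?_ h1
      rw [pev_eq]
      exact ⟨_, rfl⟩⟩

theorem toG_sub (H : Hyp e a d) (P : WPt e R) : G.sub (toG H P) = P.M := rfl

theorem toG_bc (H : Hyp e a d) (P : WPt e R) {S : Type u} [CommRing S] [Algebra k S]
    (f : R →ₐ[k] S) : bc f (toG H P) = toG H (P.map f) := by
  apply G.ext
  rw [bc_sub, toG_sub, toG_sub, P.map_M]

theorem toG_injective (H : Hyp e a d) : Injective (toG H (R := R)) := fun P Q h => by
  apply WPt.ext
  rw [← toG_sub H, h, toG_sub]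

/-- the points of the chart, among the invertible fractional ideals -/
def ofG (M : G e (R := R) a) (h1 : (1 : LaurentSeries R) ∈ G.sub M)
    (hM : IsCompl (G.sub M) (LV R 1)) : WPt e R where
  M := G.sub M
  stab x m hm := G.smul_mem (ex_mem_AR e R x) hm
  one_mem := h1
  compl := hM

theorem toG_ofG (H : Hyp e a d) (M : G e (R := R) a) (h1 : (1 : LaurentSeries R) ∈ G.sub M)
    (hM : IsCompl (G.sub M) (LV R 1)) : toG H (ofG M h1 hM) = M := G.ext rfl

end Fermat.Agent.J25.I
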