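import Fermat.Agent.H02J.Inv8

/-!
# The chart is formally smooth: lifting a point along a square zero ideal
-/

set_option autoImplicit false

noncomputable section

namespace Fermat.Agent.J25.I

attribute [-instance] HahnSeries.powerSeriesAlgebra

open HahnSeries Function Polynomial
open scoped TensorProduct

universe u

variable {k : Type u} [Field k] {A : Type u} [CommRing A] [Algebra k A]
  {e : A →ₐ[k] LaurentSeries k} {R : Type u} [CommRing R] [Algebra k R]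

section Smo

/-- the quotient map -/
abbrev qI (k : Type u) [Field k] {R : Type u} [CommRing R] [Algebra k R] (I : Ideal R) :
    R →ₐ[k] R ⧸ I := Ideal.Quotient.mkₐ k I

/-- the quotient map on Laurent series -/
abbrev qL (I : Ideal R) : LaurentSeries R →+* LaurentSeries (R ⧸ I) :=
  lmap (Ideal.Quotient.mk I)

theorem exists_lift_LV (I : Ideal R) {y : LaurentSeries (R ⧸ I)} (hy : y ∈ LV (R ⧸ I) 1) :
    ∃ x ∈ LV R 1, qL I x = y := by
  choose c hc using fun i : ℕ => Ideal.Quotient.mk_surjective (y.coeff (i + 1 : ℤ))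
  refine ⟨mkP c, mkP_mem c, ?_⟩
  rw [qL, lmap_mkP, eq_mkP hy]
  congr 1
  funext i
  exact hc i

theorem qL_eq_zero {I : Ideal R} {x : LaurentSeries R} (hx : qL I x = 0) (i : ℤ) :
    x.coeff i ∈ I := by
  have h := congrArg (fun y : LaurentSeries (R ⧸ I) => y.coeff i) hx
  exact Ideal.Quotient.eq_zero_iff_mem.1 h

theorem mul_eq_zero_of_sq {I : Ideal R} (hI : I ^ 2 = ⊥) {i j : R} (hi : i ∈ I) (hj : j ∈ I) :
    i * j = 0 := by
  have h : i * j ∈ I ^ 2 := by rw [pow_two]; exact Ideal.mul_mem_mul hi hj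
  rwa [hI, Ideal.mem_bot] at h

theorem smul_of_qL {I : Ideal R} (hI : I ^ 2 = ⊥) {i : R} (hi : i ∈ I) {x : LaurentSeries R}
    (hx : qL I x = 0) : i • x = 0 := by
  ext j
  rw [HahnSeries.coeff_smul, smul_eq_mul, mul_eq_zero_of_sq hI hi (qL_eq_zero hx j),
    HahnSeries.coeff_zero]

theorem mul_of_qL {I : Ideal R} (hI : I ^ 2 = ⊥) {x y : LaurentSeries R}
    (hx : qL I x = 0) (hy : qL I y = 0) : x * y = 0 := by
  obtain ⟨m, hm⟩ := exists_mem_LV x
  obtain ⟨n, hn⟩ := exists_mem_LV y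
  ext i
  rw [coeff_mul_of_mem hm hn, HahnSeries.coeff_zero]
  exact Finset.sum_eq_zero fun s _ => mul_eq_zero_of_sq hI (qL_eq_zero hx _) (qL_eq_zero hy _)

/-- lifting data -/
structure LD (I : Ideal R) (Q : WPt e (R ⧸ I)) where
  w : ℕ → LaurentSeries R
  hw : ∀ j, w j - single (-(j : ℤ)) 1 ∈ LV R 1
  hq : ∀ j, qL I (w j) = Q.wb j

theorem exists_LD (I : Ideal R) (Q : WPt e (R ⧸ I)) : Nonempty (LD I Q) := by
  choose x hx hx' using fun j => exists_lift_LV I (Q.wb_sub j)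
  refine ⟨⟨fun j => single (-(j : ℤ)) 1 + x j, fun j => ?_, fun j => ?_⟩⟩
  · rw [add_sub_cancel_left]
    exact hx j
  · rw [map_add, hx']
    have : qL I (single (-(j : ℤ)) (1 : R)) = single (-(j : ℤ)) 1 := by
      rw [qL, lmap_single, map_one]
    rw [this]
    ring

variable {I : Ideal R} {Q : WPt e (R ⧸ I)} (D : LD I Q)

namespace LD

/-- the span -/
def T : Submodule R (LaurentSeries R) := Submodule.span R (Set.range D.w)

theorem isCompl : IsCompl D.T (LV R 1) := isCompl_span D.hw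

theorem mem_T (j : ℕ) : D.w j ∈ D.T := Submodule.subset_span ⟨j, rfl⟩

/-- the projection on the span -/
def pr (n : ℕ) (x : LaurentSeries R) : LaurentSeries R :=
  ∑ l ∈ Finset.range (n + 1), x.coeff (-(l : ℤ)) • D.w l

theorem pr_mem (n : ℕ) (x : LaurentSeries R) : D.pr n x ∈ D.T :=
  Submodule.sum_mem _ fun l _ => Submodule.smul_mem _ _ (D.mem_T l)

theorem sub_pr_mem {n : ℕ} {x : LaurentSeries R} (hx : x ∈ LV R (-(n : ℤ))) :
    x - D.pr n x ∈ LV R 1 := redm_mem D.hw hx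

theorem eq_pr {n : ℕ} {x : LaurentSeries R} (hx : x ∈ LV R (-(n : ℤ))) (hT : x ∈ D.T) :
    x = D.pr n x := by
  have h1 := eq_zero_of_isCompl D.isCompl _ (sub_mem hT (D.pr_mem n x)) (D.sub_pr_mem hx)
  rwa [sub_eq_zero] at h1

theorem qL_pr {n : ℕ} {x : LaurentSeries R} (hx : x ∈ LV R (-(n : ℤ))) (hQ : qL I x ∈ Q.M) :
    qL I (x - D.pr n x) = 0 := by
  have h1 := Q.eq_sum hQ (lmap_mem_LV (Ideal.Quotient.mk I) hx)
  rw [map_sub, sub_eq_zero, pr, map_sum]
  refine h1.trans (Finset.sum_congr rfl fun l _ => ?_)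
  rw [qL, lmap_smul, ← D.hq]
  rfl

/-- the kernel part -/
def U : Submodule R (LaurentSeries R) where
  carrier := {x | x ∈ D.T ∧ qL I x = 0}
  zero_mem' := ⟨zero_mem _, map_zero _⟩
  add_mem' hx hy := ⟨add_mem hx.1 hy.1, by rw [map_add, hx.2, hy.2, add_zero]⟩
  smul_mem' r x hx := ⟨Submodule.smul_mem _ _ hx.1, by rw [qL, lmap_smul]; erw [hx.2]; rw [smul_zero]⟩

theorem smul_mem_U (hI : I ^ 2 = ⊥) {i : R} (hi : i ∈ I) {x : LaurentSeries R}
    (hx : qL I x ∈ Q.M) : i • x ∈ D.U := by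
  obtain ⟨n, hn⟩ := exists_mem_LV x
  have h1 := smul_of_qL hI hi (D.qL_pr hn hx)
  rw [smul_sub, sub_eq_zero] at h1
  refine ⟨?_, ?_⟩
  · rw [h1]
    exact Submodule.smul_mem _ _ (D.pr_mem n x)
  · rw [qL, lmap_smul, Ideal.Quotient.eq_zero_iff_mem.2 hi, zero_smul]

theorem qL_exR (t : R ⊗[k] A) : qL I (exR e R t) = exR e (R ⧸ I) (bcRing (A := A) (qI k I) t) :=
  lmap_exR e (qI k I) t

theorem qL_exR_mul (Q : WPt e (R ⧸ I)) (t : R ⊗[k] A) {x : LaurentSeries R} (hx : qL I x ∈ Q.M) :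
    qL I (exR e R t * x) ∈ Q.M := by
  rw [map_mul, qL_exR]
  exact Q.exR_mul_mem _ hx

theorem w_mem (j : ℕ) : qL I (D.w j) ∈ Q.M := by
  rw [D.hq]
  exact Q.wb_mem j

theorem exR_mul_mem_U (hI : I ^ 2 = ⊥) (t : R ⊗[k] A) {x : LaurentSeries R} (hx : x ∈ D.U) :
    exR e R t * x ∈ D.U := by
  obtain ⟨n, hn⟩ := exists_mem_LV x
  rw [D.eq_pr hn hx.1, pr, Finset.mul_sum]
  refine Submodule.sum_mem _ fun l _ => ?_
  rw [mul_smul_comm]
  exact D.smul_mem_U hI (qL_eq_zero hx.2 _) (qL_exR_mul Q t (D.w_mem l))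

theorem ker_mul_mem_U (hI : I ^ 2 = ⊥) {t : R ⊗[k] A} (ht : bcRing (A := A) (qI k I) t = 0)
    {x : LaurentSeries R} (hx : qL I x ∈ Q.M) : exR e R t * x ∈ D.U := by
  let J : Submodule k R := I.restrictScalars k
  have h1 : Exact (J.subtype.rTensor A) ((qI k I).toLinearMap.rTensor A) := by
    refine rTensor_exact A ?_ (Ideal.Quotient.mkₐ_surjective k I)
    intro r
    constructor
    · intro hr
      exact ⟨⟨r, Ideal.Quotient.eq_zero_iff_mem.1 hr⟩, rfl⟩
    · rintro ⟨r, rfl⟩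
      exact Ideal.Quotient.eq_zero_iff_mem.2 r.2
  have h2 : (qI k I).toLinearMap.rTensor A t = 0 := ht
  obtain ⟨y, rfl⟩ := (h1 t).1 h2
  clear h2 ht
  induction y using TensorProduct.induction_on with
  | zero => rw [map_zero, map_zero, zero_mul]; exact zero_mem _
  | add y z hy hz => rw [map_add, map_add, add_mul]; exact add_mem hy hz
  | tmul i a =>
    have h3 : exR e R (J.subtype.rTensor A (i ⊗ₜ[k] a)) = (i : R) • ex e R a := by
      rw [LinearMap.rTensor_tmul, exR_tmul]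
      rfl
    rw [h3, smul_mul_assoc]
    refine D.smul_mem_U hI i.2 ?_
    have h4 := qL_exR_mul Q ((1 : R) ⊗ₜ[k] a) hx
    rwa [exR_tmul, one_smul] at h4

theorem mem_U_add (x : LaurentSeries R) (hx : qL I x = 0) :
    ∃ y ∈ D.U, x - y ∈ LV R 1 := by
  obtain ⟨n, hn⟩ := exists_mem_LV x
  refine ⟨D.pr n x, ⟨D.pr_mem n x, ?_⟩, D.sub_pr_mem hn⟩
  rw [pr, map_sum]
  refine Finset.sum_eq_zero fun l _ => ?_
  rw [qL, lmap_smul, Ideal.Quotient.eq_zero_iff_mem.2 (qL_eq_zero hx _), zero_smul]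

end LD

end Smo

end Fermat.Agent.J25.I
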